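import Mathlib

/-!
Shared definitions for the proof that `S_k(Γ₀(N))` is spanned by forms with integral
`q`-expansion (statements S22 and S23).
-/

set_option autoImplicit false

namespace Fermat.Agent.S23

/-- Power series over `ℂ` all of whose coefficients are (images of) integers. -/
def intSeries : Set (PowerSeries ℂ) := {s | ∀ n, ∃ m : ℤ, s.coeff n = m}

end Fermat.Agent.S23
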