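import Mathlib
import Fermat.Prelude.Def_ModularForm_HeckeOperator
import Fermat.Prelude.Thm_CongruenceSubgroup_one_mem_strictPeriods_Gamma0
import Fermat.Agent.S23.Defs

/-!
S23-L6: the form `u(z) = E₄(N z)` on `Γ₀(N)` has integral `q`-expansion and its stabiliser
in `SL(2, ℤ)` under the weight 4 slash action is contained in `Γ₀(N)`.
-/

set_option autoImplicit false

open UpperHalfPlane ModularForm
open scoped MatrixGroups Manifold

namespace Fermat.Agent.S23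
namespace Prim

open Matrix.SpecialLinearGroup Filter Topology

theorem det_ut {a b d : ℝ} (had : a * d ≠ 0) : ((upperTriangularGL a b d had).det : ℝ) = a * d := by
  rw [Matrix.GeneralLinearGroup.val_det_apply, val_upperTriangularGL, Matrix.det_fin_two_of]
  ring

theorem denom_ut {a b d : ℝ} (had : a * d ≠ 0) (τ : ℍ) :
    denom (upperTriangularGL a b d had) τ = d := by
  simp [denom, val_upperTriangularGL]

theorem coe_ut_smul {a b d : ℝ} (had : a * d ≠ 0) (hpos : 0 < a * d) (τ : ℍ) :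
    ((upperTriangularGL a b d had • τ : ℍ) : ℂ) = ((a : ℂ) * τ + b) / d := by
  rw [coe_smul_of_det_pos (by rw [det_ut]; exact hpos)]
  simp [num, denom, val_upperTriangularGL]

theorem σ_ut {a b d : ℝ} (had : a * d ≠ 0) (hpos : 0 < a * d) :
    σ (upperTriangularGL a b d had) = .refl ℝ ℂ := by
  rw [σ, if_pos (by rw [det_ut]; exact hpos)]

theorem slash_ut_apply (k : ℤ) {a b d : ℝ} (had : a * d ≠ 0) (hpos : 0 < a * d) (f : ℍ → ℂ) (τ : ℍ) :
    (f ∣[k] upperTriangularGL a b d had) τ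
      = f (upperTriangularGL a b d had • τ) * ((a * d : ℝ) : ℂ) ^ (k - 1) * (d : ℂ) ^ (-k) := by
  rw [ModularForm.slash_apply, σ_ut had hpos, det_ut had, denom_ut had, abs_of_pos hpos]
  simp

variable (N : ℕ) [NeZero N]

lemma N_mul_one_ne : (N : ℝ) * 1 ≠ 0 := by
  simpa using NeZero.ne N

lemma N_mul_one_pos : 0 < (N : ℝ) * 1 := by
  simpa using Nat.pos_of_ne_zero (NeZero.ne N)

/-- the matrix `diag(N, 1)` -/
noncomputable def Dm : GL (Fin 2) ℝ := upperTriangularGL N 0 1 (N_mul_one_ne N)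

lemma coe_Dm_smul (τ : ℍ) : ((Dm N • τ : ℍ) : ℂ) = (N : ℂ) * τ := by
  rw [Dm, coe_ut_smul _ (N_mul_one_pos N)]
  simp

lemma slash_Dm_apply (f : ℍ → ℂ) (τ : ℍ) :
    (f ∣[(4 : ℤ)] Dm N) τ = f (Dm N • τ) * (N : ℂ) ^ 3 := by
  rw [Dm, slash_ut_apply _ _ (N_mul_one_pos N)]
  norm_num

/-- conjugating `Γ₀(N)` by `diag(N,1)` lands in `SL(2, ℤ)`. -/
lemma Dm_mul_of_mem_Gamma0 (γ : SL(2, ℤ)) (hγ : γ ∈ CongruenceSubgroup.Gamma0 N) :
    ∃ γ' : SL(2, ℤ), Dm N * mapGL ℝ γ = mapGL ℝ γ' * Dm N := by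
  rw [CongruenceSubgroup.Gamma0_mem, ZMod.intCast_zmod_eq_zero_iff_dvd] at hγ
  obtain ⟨r', hr'⟩ := hγ
  have hdet := Matrix.det_fin_two γ.1
  rw [γ.2] at hdet
  refine ⟨⟨!![γ 0 0, N * γ 0 1; r', γ 1 1], ?_⟩, ?_⟩
  · rw [Matrix.det_fin_two_of]
    rw [hr'] at hdet
    linarith
  · ext i j
    have h10 : ((γ 1 0 : ℤ) : ℝ) = N * r' := by rw [hr']; push_cast; ring
    fin_cases i <;> fin_cases j <;>
      simp [Dm, Matrix.mul_apply, Fin.sum_univ_two, h10, mul_comm]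

/-- `N³ E₄(N z)` as a modular form on `Γ₀(N)`. -/
noncomputable def U0 : ModularForm (CongruenceSubgroup.Gamma0 N) 4 where
  toFun := ⇑E₄ ∣[(4 : ℤ)] Dm N
  slash_action_eq' g hg := by
    obtain ⟨γ, hγ, rfl⟩ := hg
    obtain ⟨γ', hγ'⟩ := Dm_mul_of_mem_Gamma0 N γ hγ
    rw [← SlashAction.slash_mul, hγ', SlashAction.slash_mul]
    congr 1
    exact E₄.slash_action_eq' _ ⟨γ', rfl⟩
  holo' := (ModularFormClass.holo E₄).slash 4 (Dm N)
  bdd_at_cusps' {c} hc := by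
    have h := (ModularForm.translate E₄ (Dm N)).bdd_at_cusps' (c := c)
    refine h (hc.mono ?_)
    rintro g ⟨γ, hγ, rfl⟩
    obtain ⟨γ', hγ'⟩ := Dm_mul_of_mem_Gamma0 N γ hγ
    rw [Subgroup.mem_pointwise_smul_iff_inv_smul_mem]
    refine ⟨γ', ?_⟩
    simp only [map_inv, inv_inv, ConjAct.smul_def, ConjAct.ofConjAct_toConjAct]
    rw [hγ']
    group

/-- `E₄(N z)` as a modular form on `Γ₀(N)`. -/
noncomputable def u : ModularForm (CongruenceSubgroup.Gamma0 N) 4 := ((N : ℂ) ^ 3)⁻¹ • U0 N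

lemma u_apply (τ : ℍ) : u N τ = E₄ (Dm N • τ) := by
  have hN : (N : ℂ) ≠ 0 := by exact_mod_cast NeZero.ne N
  show ((N : ℂ) ^ 3)⁻¹ • (⇑E₄ ∣[(4 : ℤ)] Dm N) τ = _
  rw [slash_Dm_apply, smul_eq_mul]
  field_simp

lemma qParam_Dm (τ : ℍ) :
    Function.Periodic.qParam 1 ((Dm N • τ : ℍ) : ℂ) = Function.Periodic.qParam 1 (τ : ℂ) ^ N := by
  rw [coe_Dm_smul, Function.Periodic.qParam, Function.Periodic.qParam, ← Complex.exp_nat_mul]
  congr 1
  ring

lemma E4_coeff_int (m : ℕ) : ∃ k : ℤ, (qExpansion 1 E₄).coeff m = k := by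
  rw [EisensteinSeries.E_qExpansion_coeff _ ⟨2, rfl⟩, show bernoulli 4 = -1 / 30 by decide +kernel]
  split_ifs
  · exact ⟨1, by simp⟩
  · exact ⟨240 * (ArithmeticFunction.sigma 3 m : ℤ), by push_cast; norm_num⟩

lemma u_qExpansion_coeff (n : ℕ) :
    (qExpansion 1 (u N)).coeff n = if N ∣ n then (qExpansion 1 E₄).coeff (n / N) else 0 := by
  have hN : 0 < N := Nat.pos_of_ne_zero (NeZero.ne N)
  refine (ModularFormClass.qExpansion_coeff_unique (f := u N)
    (c := fun n => if N ∣ n then (qExpansion 1 E₄).coeff (n / N) else 0) one_pos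
    (CongruenceSubgroup.one_mem_strictPeriods_Gamma0 N) ?_ n).symm
  intro τ
  have h1 := ModularForm.hasSum_qExpansion (f := E₄) one_pos one_mem_strictPeriods_SL (Dm N • τ)
  rw [u_apply]
  have hinj : Function.Injective (fun m : ℕ => m * N) := fun a b h =>
    Nat.eq_of_mul_eq_mul_right hN h
  rw [← hinj.hasSum_iff]
  · convert h1 using 2 with m
    simp only [Function.comp_apply, dvd_mul_left, if_true, Nat.mul_div_cancel _ hN, smul_eq_mul]
    rw [qParam_Dm, ← pow_mul, mul_comm N m]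
  · intro x hx
    have : ¬ N ∣ x := by
      rintro ⟨y, rfl⟩
      exact hx ⟨y, mul_comm _ _⟩
    simp [this]

lemma u_qExpansion_mem : qExpansion 1 (u N) ∈ intSeries := by
  intro n
  rw [u_qExpansion_coeff]
  split_ifs
  · exact E4_coeff_int _
  · exact ⟨0, by simp⟩

lemma tendsto_E4 : Tendsto (⇑E₄ : ℍ → ℂ) atImInfty (𝓝 1) := by
  have han := ModularFormClass.analyticAt_cuspFunction_zero E₄ one_pos one_mem_strictPeriods_SL
  have h0 : cuspFunction 1 (⇑E₄) 0 = 1 := by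
    have h1 := EisensteinSeries.E_qExpansion_coeff_zero (k := 4) (by norm_num) ⟨2, rfl⟩
    rw [qExpansion_coeff] at h1
    simpa using h1
  have hcomp : (cuspFunction 1 (⇑E₄) ∘ fun τ : ℍ ↦ Function.Periodic.qParam 1 (τ : ℂ)) = ⇑E₄ := by
    funext τ
    exact SlashInvariantFormClass.eq_cuspFunction E₄ τ one_mem_strictPeriods_SL one_ne_zero
  have := han.continuousAt.tendsto.comp (qParam_tendsto_atImInfty one_pos)
  rwa [hcomp, h0] at this

lemma tendsto_ut_smul {a b d : ℝ} (ha : 0 < a) (hd : 0 < d) :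
    Tendsto (fun τ : ℍ => upperTriangularGL a b d (mul_pos ha hd).ne' • τ) atImInfty atImInfty := by
  rw [atImInfty, tendsto_comap_iff]
  have him : ∀ τ : ℍ, (upperTriangularGL a b d (mul_pos ha hd).ne' • τ).im = a / d * τ.im := by
    intro τ
    rw [← coe_im, coe_ut_smul _ (mul_pos ha hd)]
    have : ((a : ℂ) * τ + b) / d = (((a / d : ℝ) : ℂ) * τ + ((b / d : ℝ) : ℂ)) := by
      have hd' : (d : ℂ) ≠ 0 := by exact_mod_cast hd.ne'
      push_cast
      field_simp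
    rw [this]
    simp
  have : (UpperHalfPlane.im ∘ fun τ : ℍ => upperTriangularGL a b d (mul_pos ha hd).ne' • τ)
      = fun τ : ℍ => a / d * τ.im := funext him
  rw [this]
  exact Tendsto.const_mul_atTop (div_pos ha hd) tendsto_comap

/-- Hermite normal form of `diag(N,1) γ`. -/
lemma exists_decomp (γ : SL(2, ℤ)) :
    ∃ (δ : SL(2, ℤ)) (a b d : ℤ) (ha : 0 < (a : ℝ)) (hd : 0 < (d : ℝ)), a * d = N ∧ a ∣ γ 1 0 ∧
      Dm N * mapGL ℝ γ = mapGL ℝ δ * upperTriangularGL a b d (mul_pos ha hd).ne' := by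
  have hN : (0 : ℤ) < N := by exact_mod_cast Nat.pos_of_ne_zero (NeZero.ne N)
  have hdet := Matrix.det_fin_two γ.1
  rw [γ.2] at hdet
  set p := γ 0 0 with hp
  set q := γ 0 1 with hq
  set r := γ 1 0 with hr
  set s := γ 1 1 with hs
  have hdet' : p * s - q * r = 1 := hdet.symm
  set g : ℤ := (Int.gcd (N * p) r : ℤ) with hg
  have hg0 : g ≠ 0 := by
    intro h0
    have h1 : Int.gcd (N * p) r = 0 := by
      rw [hg] at h0
      exact_mod_cast h0
    rw [Int.gcd_eq_zero_iff] at h1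
    have hp0 : p = 0 := by
      rcases mul_eq_zero.mp h1.1 with h | h
      · exact absurd h hN.ne'
      · exact h
    rw [hp0, h1.2] at hdet'
    simp at hdet'
  have hgpos : 0 < g := lt_of_le_of_ne (by positivity) (Ne.symm hg0)
  obtain ⟨x, hx⟩ : g ∣ N * p := Int.gcd_dvd_left _ _
  obtain ⟨y, hy⟩ : g ∣ r := Int.gcd_dvd_right _ _
  have hcop : IsCoprime x y := by
    obtain ⟨m, n, hmn⟩ : ∃ m n : ℤ, g = N * p * m + r * n := ⟨_, _, Int.gcd_eq_gcd_ab _ _⟩
    refine ⟨m, n, ?_⟩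
    have : g * (m * x + n * y) = g * 1 := by
      calc g * (m * x + n * y) = (g * x) * m + (g * y) * n := by ring
        _ = N * p * m + r * n := by rw [← hx, ← hy]
        _ = g * 1 := by rw [← hmn, mul_one]
    exact mul_left_cancel₀ hg0 this
  obtain ⟨δ, hδ0, hδ1⟩ := hcop.exists_SL2_col 0
  have hδdet := Matrix.det_fin_two δ.1
  rw [δ.2] at hδdet
  set w := δ 0 1 with hw
  set z := δ 1 1 with hz
  have hδdet' : x * z - w * y = 1 := by
    have : δ.1 0 0 * δ.1 1 1 - δ.1 0 1 * δ.1 1 0 = 1 := hδdet.symm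
    rw [show δ.1 0 0 = x from hδ0, show δ.1 1 0 = y from hδ1] at this
    exact this
  set d : ℤ := x * s - y * N * q with hd
  have hgd : g * d = N := by
    calc g * d = (g * x) * s - (g * y) * N * q := by rw [hd]; ring
      _ = N * p * s - r * N * q := by rw [← hx, ← hy]
      _ = N * (p * s - q * r) := by ring
      _ = N := by rw [hdet', mul_one]
  have hdpos : 0 < d := by
    by_contra hneg
    push Not at hneg
    have : g * d ≤ 0 := mul_nonpos_of_nonneg_of_nonpos hgpos.le hneg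
    omega
  refine ⟨δ, g, z * N * q - w * s, d, by exact_mod_cast hgpos, by exact_mod_cast hdpos, hgd,
    ⟨y, hy⟩, ?_⟩
  have e00 : (N : ℝ) * (p : ℝ) = (x : ℝ) * (g : ℝ) := by
    have : (N : ℤ) * p = x * g := by rw [hx]; ring
    exact_mod_cast this
  have e10 : (r : ℝ) = (y : ℝ) * (g : ℝ) := by
    have : r = y * g := by rw [hy]; ring
    exact_mod_cast this
  have e01 : (N : ℝ) * (q : ℝ) = (x : ℝ) * ((z : ℝ) * N * q - w * s) + (w : ℝ) * (d : ℝ) := by
    have : (N : ℤ) * q = x * (z * N * q - w * s) + w * d := by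
      rw [hd]
      linear_combination (-(N : ℤ) * q) * hδdet'
    exact_mod_cast this
  have e11 : (s : ℝ) = (y : ℝ) * ((z : ℝ) * N * q - w * s) + (z : ℝ) * (d : ℝ) := by
    have : s = y * (z * N * q - w * s) + z * d := by
      rw [hd]
      linear_combination (-s) * hδdet'
    exact_mod_cast this
  ext i j
  fin_cases i <;> fin_cases j
  · simpa [Dm, Matrix.mul_apply, Fin.sum_univ_two, ← hp, hδ0] using e00
  · simpa [Dm, Matrix.mul_apply, Fin.sum_univ_two, ← hq, hδ0, ← hw] using e01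
  · simpa [Dm, Matrix.mul_apply, Fin.sum_univ_two, ← hr, hδ1] using e10
  · simpa [Dm, Matrix.mul_apply, Fin.sum_univ_two, ← hs, hδ1, ← hz] using e11

lemma coe_u : (⇑(u N) : ℍ → ℂ) = ((N : ℂ) ^ 3)⁻¹ • (⇑E₄ ∣[(4 : ℤ)] Dm N) := rfl

lemma tendsto_u : Tendsto (⇑(u N) : ℍ → ℂ) atImInfty (𝓝 1) := by
  have h : (⇑(u N) : ℍ → ℂ) = ⇑E₄ ∘ fun τ : ℍ => Dm N • τ := funext (u_apply N)
  rw [h]
  have hN : (0 : ℝ) < N := by exact_mod_cast Nat.pos_of_ne_zero (NeZero.ne N)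
  exact tendsto_E4.comp (tendsto_ut_smul hN one_pos)

end Prim

open Prim Filter Topology Matrix.SpecialLinearGroup in
theorem exists_primitive (N : ℕ) [NeZero N] :
    ∃ u : ModularForm (CongruenceSubgroup.Gamma0 N) 4, qExpansion 1 u ∈ intSeries ∧
      ∀ γ : SL(2, ℤ), (⇑u ∣[(4 : ℤ)] γ = ⇑u) → γ ∈ CongruenceSubgroup.Gamma0 N := by
  refine ⟨u N, u_qExpansion_mem N, fun γ hγ => ?_⟩
  obtain ⟨δ, a, b, d, ha, hd, had, hdvd, hmat⟩ := exists_decomp N γ
  have hN : (N : ℂ) ≠ 0 := by exact_mod_cast NeZero.ne N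
  have hdC : (d : ℂ) ≠ 0 := by
    have : (d : ℝ) ≠ 0 := hd.ne'
    exact_mod_cast this
  have key : ∀ τ : ℍ, (⇑(u N) ∣[(4 : ℤ)] γ) τ
      = E₄ (upperTriangularGL a b d (mul_pos ha hd).ne' • τ) * ((d : ℂ) ^ 4)⁻¹ := by
    intro τ
    rw [coe_u, SL_smul_slash, SL_slash, ← SlashAction.slash_mul]
    have : Dm N * (γ : GL (Fin 2) ℝ) = mapGL ℝ δ * upperTriangularGL a b d (mul_pos ha hd).ne' :=
      hmat
    rw [this, SlashAction.slash_mul]
    have hE : (⇑E₄ ∣[(4 : ℤ)] mapGL ℝ δ) = ⇑E₄ := E₄.slash_action_eq' _ ⟨δ, rfl⟩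
    rw [hE, Pi.smul_apply, slash_ut_apply _ _ (mul_pos ha hd), smul_eq_mul]
    have had' : (((a : ℝ) * (d : ℝ) : ℝ) : ℂ) = N := by exact_mod_cast had
    generalize E₄ (upperTriangularGL a b d (mul_pos ha hd).ne' • τ) = e
    rw [had']
    norm_num
    field_simp
  have hlim1 : Tendsto (⇑(u N) ∣[(4 : ℤ)] γ) atImInfty (𝓝 (1 * ((d : ℂ) ^ 4)⁻¹)) := by
    have : (⇑(u N) ∣[(4 : ℤ)] γ) = fun τ : ℍ =>
        E₄ (upperTriangularGL a b d (mul_pos ha hd).ne' • τ) * ((d : ℂ) ^ 4)⁻¹ := funext key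
    rw [this]
    exact (tendsto_E4.comp (tendsto_ut_smul ha hd)).mul_const _
  rw [hγ] at hlim1
  have heq := tendsto_nhds_unique hlim1 (tendsto_u N)
  have hd4 : (d : ℂ) ^ 4 = 1 := by
    rw [one_mul] at heq
    exact inv_eq_one.mp heq
  have hd4' : d ^ 4 = 1 := by exact_mod_cast hd4
  have hdpos : 0 < d := by exact_mod_cast hd
  have hd1 : d = 1 := by
    by_contra hne
    have h2 : 2 ≤ d := by omega
    have : (2 : ℤ) ^ 4 ≤ d ^ 4 := pow_le_pow_left₀ (by norm_num) h2 4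
    omega
  rw [hd1, mul_one] at had
  rw [CongruenceSubgroup.Gamma0_mem, ZMod.intCast_zmod_eq_zero_iff_dvd, ← had]
  exact hdvd

end Fermat.Agent.S23
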