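import Mathlib
import Fermat.Agent.S23.Defs

/-!
The algebra of `1`-periodic holomorphic functions on `ℍ` bounded at `i∞`, and the `q`-expansion as
an injective algebra homomorphism to power series.
-/

set_option autoImplicit false

open UpperHalfPlane ModularForm
open scoped MatrixGroups Manifold

namespace Fermat.Agent.S23

/-- `1`-periodic holomorphic functions on `ℍ`, bounded at `i∞`. -/
def niceAlg : Subalgebra ℂ (ℍ → ℂ) where
  carrier := {g | Function.Periodic (g ∘ ofComplex) 1 ∧ MDiff g ∧ IsBoundedAtImInfty g}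
  mul_mem' := by
    rintro a b ⟨ha1, ha2, ha3⟩ ⟨hb1, hb2, hb3⟩
    exact ⟨ha1.mul hb1, ha2.mul hb2, Filter.BoundedAtFilter.mul ha3 hb3⟩
  add_mem' := by
    rintro a b ⟨ha1, ha2, ha3⟩ ⟨hb1, hb2, hb3⟩
    exact ⟨ha1.add hb1, ha2.add hb2, Filter.BoundedAtFilter.add ha3 hb3⟩
  algebraMap_mem' := by
    intro r
    refine ⟨fun x => rfl, fun _ => mdifferentiableAt_const, ?_⟩
    exact Filter.const_boundedAtFilter _ r

lemma analyticAt_of_mem_niceAlg {g : ℍ → ℂ} (hg : g ∈ niceAlg) :
    AnalyticAt ℂ (cuspFunction 1 g) 0 :=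
  analyticAt_cuspFunction_zero one_pos hg.1 hg.2.1 hg.2.2

/-- The `q`-expansion as an algebra homomorphism. -/
noncomputable def qHom : niceAlg →ₐ[ℂ] PowerSeries ℂ where
  toFun g := qExpansion 1 g.1
  map_one' := qExpansion_one 1
  map_mul' a b := qExpansion_mul (analyticAt_of_mem_niceAlg a.2) (analyticAt_of_mem_niceAlg b.2)
  map_zero' := qExpansion_zero 1
  map_add' a b := qExpansion_add (analyticAt_of_mem_niceAlg a.2) (analyticAt_of_mem_niceAlg b.2)
  commutes' r := by
    have h1 : ((algebraMap ℂ niceAlg r : niceAlg) : ℍ → ℂ) = r • (1 : ℍ → ℂ) := by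
      ext z; simp [Algebra.algebraMap_eq_smul_one]
    rw [h1, qExpansion_smul (analyticAt_of_mem_niceAlg (one_mem niceAlg)), qExpansion_one,
      Algebra.algebraMap_eq_smul_one]

@[simp] lemma qHom_apply (g : niceAlg) : qHom g = qExpansion 1 g.1 := rfl

lemma qHom_injective : Function.Injective qHom := by
  rw [injective_iff_map_eq_zero]
  intro g hg
  have := (qExpansion_eq_zero_iff one_pos g.2.1 g.2.2.1 g.2.2.2).mp hg
  exact Subtype.ext this

lemma mem_niceAlg {Γ : Subgroup (GL (Fin 2) ℝ)} {k : ℤ} {F : Type*} [FunLike F ℍ ℂ]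
    [ModularFormClass F Γ k] (h1 : (1 : ℝ) ∈ Γ.strictPeriods) (G : F) : ⇑G ∈ niceAlg := by
  have : Fact (IsCusp OnePoint.infty Γ) := ⟨Γ.isCusp_of_mem_strictPeriods one_pos h1⟩
  exact ⟨SlashInvariantFormClass.periodic_comp_ofComplex G h1, ModularFormClass.holo G,
    ModularFormClass.bdd_at_infty G⟩

end Fermat.Agent.S23
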