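import Mathlib
import Fermat.Agent.S23.Defs

/-!
# Division of modular forms under an integrality hypothesis (lemma L7 for S22/S23)
-/

set_option autoImplicit false

open UpperHalfPlane ModularForm Filter Topology
open scoped MatrixGroups Manifold

namespace Fermat.Agent.S23

/-- Cauchy-type root bound: a root `x` of a monic polynomial `x^μ + ∑ c_i x^i` satisfies
`‖x‖ < r` as soon as `∑ ‖c_i‖ r^i < r^μ`. -/
theorem norm_lt_of_monic_root {μ : ℕ} {c : ℕ → ℂ} {x : ℂ} {r : ℝ} (hr : 0 < r)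
    (hx : x ^ μ + ∑ i ∈ Finset.range μ, c i * x ^ i = 0)
    (hsum : ∑ i ∈ Finset.range μ, ‖c i‖ * r ^ i < r ^ μ) : ‖x‖ < r := by
  by_contra hcon
  rw [not_lt] at hcon
  have hxpos : 0 < ‖x‖ := lt_of_lt_of_le hr hcon
  -- `‖x‖^μ ≤ ∑ ‖c_i‖ ‖x‖^i`
  have h1 : ‖x‖ ^ μ ≤ ∑ i ∈ Finset.range μ, ‖c i‖ * ‖x‖ ^ i := by
    have : x ^ μ = - ∑ i ∈ Finset.range μ, c i * x ^ i := eq_neg_of_add_eq_zero_left hx
    calc ‖x‖ ^ μ = ‖x ^ μ‖ := (norm_pow _ _).symm
      _ = ‖∑ i ∈ Finset.range μ, c i * x ^ i‖ := by rw [this, norm_neg]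
      _ ≤ ∑ i ∈ Finset.range μ, ‖c i * x ^ i‖ := norm_sum_le _ _
      _ = ∑ i ∈ Finset.range μ, ‖c i‖ * ‖x‖ ^ i := by simp [norm_pow]
  -- multiply `hsum` by `(‖x‖/r)^μ`
  have h2 : ∑ i ∈ Finset.range μ, ‖c i‖ * ‖x‖ ^ i ≤
      (∑ i ∈ Finset.range μ, ‖c i‖ * r ^ i) * (‖x‖ / r) ^ μ := by
    rw [Finset.sum_mul]
    refine Finset.sum_le_sum fun i hi => ?_
    have hi' : i ≤ μ := (Finset.mem_range.1 hi).le
    have hq : 1 ≤ ‖x‖ / r := (one_le_div hr).2 hcon
    have : ‖x‖ ^ i = r ^ i * (‖x‖ / r) ^ i := by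
      rw [div_pow]; field_simp
    rw [this, mul_assoc]
    refine mul_le_mul_of_nonneg_left ?_ (norm_nonneg _)
    refine mul_le_mul_of_nonneg_left ?_ (pow_nonneg hr.le _)
    exact pow_le_pow_right₀ hq hi'
  have h3 : (∑ i ∈ Finset.range μ, ‖c i‖ * r ^ i) * (‖x‖ / r) ^ μ < r ^ μ * (‖x‖ / r) ^ μ :=
    mul_lt_mul_of_pos_right hsum (pow_pos (div_pos hxpos hr) _)
  have h4 : r ^ μ * (‖x‖ / r) ^ μ = ‖x‖ ^ μ := by
    rw [div_pow]; field_simp
  linarith

/-- A cruder root bound. -/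
theorem norm_lt_one_add_of_monic_root {μ : ℕ} {c : ℕ → ℂ} {x : ℂ}
    (hx : x ^ μ + ∑ i ∈ Finset.range μ, c i * x ^ i = 0) :
    ‖x‖ < 1 + ∑ i ∈ Finset.range μ, ‖c i‖ := by
  rcases Nat.eq_zero_or_pos μ with rfl | hμ
  · simp at hx
  set s := ∑ i ∈ Finset.range μ, ‖c i‖ with hs
  have hs0 : 0 ≤ s := Finset.sum_nonneg fun _ _ => norm_nonneg _
  have hr : 0 < 1 + s := by linarith
  refine norm_lt_of_monic_root hr hx ?_
  obtain ⟨m, rfl⟩ : ∃ m, μ = m + 1 := ⟨μ - 1, by omega⟩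
  calc ∑ i ∈ Finset.range (m + 1), ‖c i‖ * (1 + s) ^ i
      ≤ ∑ i ∈ Finset.range (m + 1), ‖c i‖ * (1 + s) ^ m := by
        refine Finset.sum_le_sum fun i hi => ?_
        refine mul_le_mul_of_nonneg_left ?_ (norm_nonneg _)
        exact pow_le_pow_right₀ (by linarith) (Nat.lt_succ_iff.1 (Finset.mem_range.1 hi))
    _ = s * (1 + s) ^ m := by rw [← Finset.sum_mul]
    _ < (1 + s) * (1 + s) ^ m := by
        refine mul_lt_mul_of_pos_right (by linarith) (pow_pos hr _)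
    _ = (1 + s) ^ (m + 1) := by ring

/-- Dividing the homogeneous relation by `b ^ μ`. -/
theorem div_relation {μ : ℕ} {c : ℕ → ℂ} {a b : ℂ} (hb : b ≠ 0)
    (h : a ^ μ + ∑ i ∈ Finset.range μ, c i * b ^ (μ - i) * a ^ i = 0) :
    (a / b) ^ μ + ∑ i ∈ Finset.range μ, c i * (a / b) ^ i = 0 := by
  have hbμ : b ^ μ ≠ 0 := pow_ne_zero _ hb
  have : ((a / b) ^ μ + ∑ i ∈ Finset.range μ, c i * (a / b) ^ i) * b ^ μ = 0 := by
    rw [add_mul, Finset.sum_mul, ← h]
    congr 1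
    · rw [div_pow]; field_simp
    · refine Finset.sum_congr rfl fun i hi => ?_
      have hi' : i ≤ μ := (Finset.mem_range.1 hi).le
      have : b ^ μ = b ^ (μ - i) * b ^ i := by rw [← pow_add]; congr 1; omega
      rw [this, div_pow]
      field_simp
  exact (mul_eq_zero.1 this).resolve_right hbμ

/-- Quotient of two holomorphic functions on `ℍ` which is integral over continuous functions
is holomorphic. -/
theorem exists_mdiff_quotient {g₁ g₂ : ℍ → ℂ} (h₁ : MDiff g₁) (h₂ : MDiff g₂) (hg₂ : g₂ ≠ 0)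
    (μ : ℕ) (c : ℕ → ℍ → ℂ) (hc : ∀ i < μ, Continuous (c i))
    (h : ∀ z, g₁ z ^ μ + ∑ i ∈ Finset.range μ, c i z * g₂ z ^ (μ - i) * g₁ z ^ i = 0) :
    ∃ φ : ℍ → ℂ, MDiff φ ∧ ∀ z, φ z * g₂ z = g₁ z := by
  set U : Set ℂ := {z | 0 < z.im} with hU
  have hUo : IsOpen U := isOpen_upperHalfPlaneSet
  set G1 : ℂ → ℂ := g₁ ∘ ofComplex with hG1def
  set G2 : ℂ → ℂ := g₂ ∘ ofComplex with hG2def
  have hG1 : AnalyticOnNhd ℂ G1 U := (UpperHalfPlane.mdifferentiable_iff.1 h₁).analyticOnNhd hUo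
  have hG2 : AnalyticOnNhd ℂ G2 U := (UpperHalfPlane.mdifferentiable_iff.1 h₂).analyticOnNhd hUo
  have hUconn : IsPreconnected U :=
    (Complex.isConnected_of_upperHalfPlane subset_rfl (by grind)).isPreconnected
  -- zeros of `G2` are isolated
  have hne : ∀ x ∈ U, ∀ᶠ z in 𝓝[≠] x, G2 z ≠ 0 := by
    intro x hx
    rcases (hG2 x hx).eventually_eq_zero_or_eventually_ne_zero with h0 | h0
    · exfalso
      apply hg₂
      have := hG2.eqOn_zero_of_preconnected_of_eventuallyEq_zero hUconn hx h0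
      ext τ
      have h3 := this τ.im_pos
      simpa [hG2def] using h3
    · exact h0
  set ψ : ℂ → ℂ := fun z => G1 z / G2 z with hψ
  have hψm : MeromorphicOn ψ U := fun x hx =>
    (hG1 x hx).meromorphicAt.div (hG2 x hx).meromorphicAt
  -- order is nonnegative
  have hord : ∀ x ∈ U, 0 ≤ meromorphicOrderAt ψ x := by
    intro x hx
    by_contra hneg
    rw [not_le] at hneg
    have ht := tendsto_cobounded_of_meromorphicOrderAt_neg hneg
    rw [← tendsto_norm_atTop_iff_cobounded] at ht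
    -- local bound
    set B : ℂ → ℝ := fun z => 1 + ∑ i ∈ Finset.range μ, ‖c i (ofComplex z)‖ with hB
    have hBc : ContinuousAt B x := by
      refine continuousAt_const.add (tendsto_finsetSum _ fun i hi => ?_)
      have h5 : ContinuousAt ofComplex x := (mdifferentiableAt_ofComplex hx).continuousAt
      exact ((hc i (Finset.mem_range.1 hi)).continuousAt.comp h5).norm
    have hBev : ∀ᶠ z in 𝓝[≠] x, B z < B x + 1 :=
      (hBc.eventually_lt continuousAt_const (by simp)).filter_mono nhdsWithin_le_nhds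
    have hbd : ∀ᶠ z in 𝓝[≠] x, ‖ψ z‖ < B x + 1 := by
      filter_upwards [hne x hx, hBev] with z hz hzB
      refine lt_trans ?_ hzB
      exact norm_lt_one_add_of_monic_root (c := fun i => c i (ofComplex z))
        (div_relation hz (h (ofComplex z)))
    have hge : ∀ᶠ z in 𝓝[≠] x, B x + 1 ≤ ‖ψ z‖ := ht.eventually_ge_atTop _
    obtain ⟨z, hz1, hz2⟩ := (hbd.and hge).exists
    linarith
  set Φ : ℂ → ℂ := toMeromorphicNFOn ψ U with hΦ
  have hΦan : ∀ x ∈ U, AnalyticAt ℂ Φ x := by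
    intro x hx
    have hnf : MeromorphicNFAt Φ x := meromorphicNFOn_toMeromorphicNFOn ψ U hx
    rw [← hnf.meromorphicOrderAt_nonneg_iff_analyticAt, hΦ,
      meromorphicOrderAt_toMeromorphicNFOn hψm hx]
    exact hord x hx
  have hmul : ∀ x ∈ U, Φ x * G2 x = G1 x := by
    intro x hx
    have heq : (fun z => Φ z * G2 z) =ᶠ[𝓝[≠] x] G1 := by
      filter_upwards [hψm.toMeromorphicNFOn_eq_self_on_nhdsNE hx, hne x hx] with z hz1 hz2
      rw [← hΦ] at hz1
      rw [hz1, hψ]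
      field_simp
    have t1 : Tendsto (fun z => Φ z * G2 z) (𝓝[≠] x) (𝓝 (Φ x * G2 x)) :=
      (((hΦan x hx).continuousAt.mul (hG2 x hx).continuousAt).tendsto).mono_left
        nhdsWithin_le_nhds
    have t2 : Tendsto G1 (𝓝[≠] x) (𝓝 (G1 x)) :=
      ((hG1 x hx).continuousAt.tendsto).mono_left nhdsWithin_le_nhds
    exact tendsto_nhds_unique (t1.congr' heq) t2
  refine ⟨fun τ => Φ τ, ?_, ?_⟩
  · rw [UpperHalfPlane.mdifferentiable_iff]
    refine DifferentiableOn.congr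
      (fun z hz => (hΦan z hz).differentiableAt.differentiableWithinAt) ?_
    intro z hz
    simp [ofComplex_apply_of_im_pos hz]
  · intro τ
    have := hmul τ τ.im_pos
    simpa [hG1def, hG2def] using this

/-- Roots of monic polynomials whose coefficients tend to `0` tend to `0`. -/
theorem tendsto_zero_of_monic_root {α : Type*} {l : Filter α} {μ : ℕ} {c : ℕ → α → ℂ}
    {x : α → ℂ} (hc : ∀ i < μ, Tendsto (c i) l (𝓝 0))
    (hx : ∀ a, x a ^ μ + ∑ i ∈ Finset.range μ, c i a * x a ^ i = 0) :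
    Tendsto x l (𝓝 0) := by
  rw [tendsto_zero_iff_norm_tendsto_zero, Metric.tendsto_nhds]
  intro ε hε
  have hs : Tendsto (fun a => ∑ i ∈ Finset.range μ, ‖c i a‖ * ε ^ i) l (𝓝 0) := by
    have : Tendsto (fun a => ∑ i ∈ Finset.range μ, ‖c i a‖ * ε ^ i) l
        (𝓝 (∑ i ∈ Finset.range μ, 0 * ε ^ i)) := by
      refine tendsto_finsetSum _ fun i hi => ?_
      exact (tendsto_zero_iff_norm_tendsto_zero.1 (hc i (Finset.mem_range.1 hi))).mul_const _
    simpa using this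
  have hev : ∀ᶠ a in l, ∑ i ∈ Finset.range μ, ‖c i a‖ * ε ^ i < ε ^ μ :=
    hs.eventually_lt tendsto_const_nhds (pow_pos hε _)
  filter_upwards [hev] with a ha
  have := norm_lt_of_monic_root (c := fun i => c i a) hε (hx a) ha
  simpa using this

theorem exists_cuspForm_of_monic {Γ : Subgroup (GL (Fin 2) ℝ)} [Γ.IsArithmetic] [Γ.HasDetOne]
    {k w : ℤ} (g₁ : ModularForm Γ (w + k)) (g₂ : ModularForm Γ w) (hg₂ : g₂ ≠ 0) (μ : ℕ)
    (c : ℕ → ℍ → ℂ) (hc : ∀ i < μ, ∃ C : CuspForm 𝒮ℒ (k * (μ - i)), ⇑C = c i)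
    (h : ∀ z, g₁ z ^ μ + ∑ i ∈ Finset.range μ, c i z * g₂ z ^ (μ - i) * g₁ z ^ i = 0) :
    ∃ φ : CuspForm Γ k, ∀ z, φ z * g₂ z = g₁ z := by
  have hg₂' : (g₂ : ℍ → ℂ) ≠ 0 := fun h0 => hg₂ (DFunLike.coe_injective h0)
  have hcM : ∀ i < μ, MDiff (c i) := by
    intro i hi
    obtain ⟨C, hC⟩ := hc i hi
    rw [← hC]; exact CuspFormClass.holo C
  obtain ⟨φ, hφ, hmul⟩ := exists_mdiff_quotient (ModularFormClass.holo g₁)
    (ModularFormClass.holo g₂) hg₂' μ c (fun i hi => (hcM i hi).continuous) h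
  have hmul' : φ * (g₂ : ℍ → ℂ) = g₁ := funext hmul
  -- the monic relation for `φ`
  have hP : ∀ z, φ z ^ μ + ∑ i ∈ Finset.range μ, c i z * φ z ^ i = 0 := by
    set P : ℍ → ℂ := φ ^ μ + ∑ i ∈ Finset.range μ, c i * φ ^ i with hPdef
    have hPM : MDiff P := by
      refine (hφ.pow μ).add (MDifferentiable.sum fun i hi => ?_)
      exact (hcM i (Finset.mem_range.1 hi)).mul (hφ.pow i)
    have hz : (g₂ : ℍ → ℂ) ^ μ * P = 0 := by
      ext z
      simp only [hPdef, Pi.mul_apply, Pi.pow_apply, Pi.add_apply, Finset.sum_apply, Pi.zero_apply]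
      rw [← h z, mul_add, Finset.mul_sum, ← hmul z]
      congr 1
      · ring
      · refine Finset.sum_congr rfl fun i hi => ?_
        have hi' : i ≤ μ := (Finset.mem_range.1 hi).le
        have : g₂ z ^ μ = g₂ z ^ (μ - i) * g₂ z ^ i := by rw [← pow_add]; congr 1; omega
        rw [this]; ring
    rcases (UpperHalfPlane.mul_eq_zero_iff ((ModularFormClass.holo g₂).pow μ) hPM).1 hz with h0 | h0
    · exfalso
      apply hg₂'
      ext z
      have := congrFun h0 z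
      exact eq_zero_of_pow_eq_zero (n := μ) (by simpa using this)
    · intro z
      have := congrFun h0 z
      simpa [hPdef] using this
  -- slash invariance
  have hslash : ∀ γ ∈ Γ, φ ∣[k] γ = φ := by
    intro γ hγ
    have h1 : (φ * (g₂ : ℍ → ℂ)) ∣[k + w] γ
        = |(γ.det : ℝ)| • (φ ∣[k] γ * (g₂ : ℍ → ℂ) ∣[w] γ) := mul_slash k w γ φ g₂
    have h2 : (g₁ : ℍ → ℂ) ∣[k + w] γ = g₁ := by
      rw [add_comm]; exact SlashInvariantForm.slash_action_eqn g₁ γ hγ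
    rw [hmul', SlashInvariantForm.slash_action_eqn g₂ γ hγ, Subgroup.HasDetOne.det_eq hγ, h2] at h1
    have h3 : (φ ∣[k] γ - φ) * (g₂ : ℍ → ℂ) = 0 := by
      rw [sub_mul, hmul']
      simp only [Units.val_one, abs_one, one_smul] at h1
      rw [← h1, sub_self]
    rcases (UpperHalfPlane.mul_eq_zero_iff ((hφ.slash k γ).sub hφ)
      (ModularFormClass.holo g₂)).1 h3 with h0 | h0
    · exact sub_eq_zero.1 h0
    · exact absurd h0 hg₂'
  -- vanishing at cusps
  have hcusp : ∀ {c' : OnePoint ℝ}, IsCusp c' Γ → c'.IsZeroAt φ k := by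
    intro c' hc'
    rw [Subgroup.IsArithmetic.isCusp_iff_isCusp_SL2Z] at hc'
    rw [OnePoint.isZeroAt_iff_forall_SL2Z hc']
    intro γ _
    refine tendsto_zero_of_monic_root (μ := μ) (c := c) ?_ ?_
    · intro i hi
      obtain ⟨C, hC⟩ := hc i hi
      rw [← hC]; exact CuspFormClass.zero_at_infty C
    · intro z
      rw [SL_slash_apply]
      set d : ℂ := denom γ z with hd
      have hd0 : d ≠ 0 := denom_ne_zero _ _
      set X : ℂ := φ (γ • z) with hX
      have hrel := hP (γ • z)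
      rw [← hX] at hrel
      have hci : ∀ i < μ, c i (γ • z) = d ^ (k * (μ - i)) * c i z := by
        intro i hi
        obtain ⟨C, hC⟩ := hc i hi
        rw [← hC]
        have hmem : Matrix.SpecialLinearGroup.mapGL ℝ γ ∈ 𝒮ℒ := ⟨γ, rfl⟩
        exact SlashInvariantForm.slash_action_eqn'' C hmem z
      have : (X * d ^ (-k)) ^ μ + ∑ i ∈ Finset.range μ, c i z * (X * d ^ (-k)) ^ i
          = (d ^ (-k)) ^ μ * (X ^ μ + ∑ i ∈ Finset.range μ, c i (γ • z) * X ^ i) := by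
        rw [mul_add, Finset.mul_sum, mul_pow, mul_comm]
        congr 1
        refine Finset.sum_congr rfl fun i hi => ?_
        rw [hci i (Finset.mem_range.1 hi)]
        have hz : (d ^ (-k)) ^ μ * d ^ (k * (μ - i)) = (d ^ (-k)) ^ i := by
          rw [← zpow_natCast, ← zpow_natCast, ← zpow_mul, ← zpow_mul, ← zpow_add₀ hd0]
          congr 1; ring
        rw [mul_pow, ← hz]; ring
      rw [this, hrel, mul_zero]
  exact ⟨{ toFun := φ, slash_action_eq' := hslash, holo' := hφ, zero_at_cusps' := hcusp }, hmul⟩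

end Fermat.Agent.S23
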