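import Mathlib
import Fermat.Agent.S23.Defs

/-!
S23-L3: bounded denominators by almost-integrality in `ℤ⟦X⟧`.
-/

set_option autoImplicit false

namespace Fermat.Agent.S23

open PowerSeries

namespace BD

/-- The subring of `ℚ⟦X⟧` of series with integer coefficients. -/
noncomputable def Zs : Subring (PowerSeries ℚ) := (PowerSeries.map (Int.castRingHom ℚ)).range

lemma mem_Zs_iff (s : PowerSeries ℚ) : s ∈ Zs ↔ ∀ n, ∃ m : ℤ, s.coeff n = m := by
  constructor
  · rintro ⟨t, rfl⟩ n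
    exact ⟨t.coeff n, by simp⟩
  · intro h
    choose m hm using h
    refine ⟨PowerSeries.mk m, ?_⟩
    ext n
    simp [hm]

/-- If `b * a ^ i` is an integer for all `i`, with `b ≠ 0`, then `a` is an integer. -/
lemma rat_isInt_of_forall_pow (a b : ℚ) (hb : b ≠ 0)
    (h : ∀ i : ℕ, ∃ m : ℤ, b * a ^ i = m) : ∃ m : ℤ, a = m := by
  obtain ⟨b', hb'⟩ := h 0
  simp only [pow_zero, mul_one] at hb'
  subst hb'
  have hb0 : b' ≠ 0 := by
    rintro rfl
    exact hb (by simp)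
  have key : ∀ i : ℕ, ((a.den : ℤ) ^ i) ∣ b' := by
    intro i
    obtain ⟨m, hm⟩ := h i
    have hden : (a.den : ℚ) ≠ 0 := by exact_mod_cast a.den_nz
    have h1 : (b' : ℚ) * (a.num : ℚ) ^ i = m * (a.den : ℚ) ^ i := by
      have ha : a = (a.num : ℚ) / (a.den : ℚ) := (Rat.num_div_den a).symm
      rw [ha, div_pow] at hm
      field_simp at hm
      linarith
    have h2 : b' * a.num ^ i = m * (a.den : ℤ) ^ i := by exact_mod_cast h1
    have h3 : ((a.den : ℤ) ^ i) ∣ b' * a.num ^ i := ⟨m, by rw [h2]; ring⟩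
    have hcop : IsCoprime ((a.den : ℤ) ^ i) (a.num ^ i) := by
      apply IsCoprime.pow
      rw [Int.isCoprime_iff_gcd_eq_one]
      have := a.reduced
      rw [Int.gcd_comm]
      simpa [Int.gcd, Nat.Coprime] using this
    exact hcop.dvd_of_dvd_mul_right h3
  by_cases hden1 : a.den = 1
  · exact ⟨a.num, by
      conv_lhs => rw [← Rat.num_div_den a, hden1]
      simp⟩
  · exfalso
    have h2 : 2 ≤ a.den := by
      have := a.den_pos
      omega
    have h3 := key (b'.natAbs)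
    have h4 : ((a.den : ℤ) ^ b'.natAbs).natAbs ≤ b'.natAbs :=
      Nat.le_of_dvd (Int.natAbs_pos.mpr hb0) (Int.natAbs_dvd_natAbs.mpr h3)
    rw [Int.natAbs_pow, Int.natAbs_natCast] at h4
    have h5 : b'.natAbs < 2 ^ b'.natAbs := Nat.lt_two_pow_self
    have h6 : 2 ^ b'.natAbs ≤ a.den ^ b'.natAbs := Nat.pow_le_pow_left h2 _
    omega

/-- `ℤ⟦X⟧` is completely integrally closed in `ℚ⟦X⟧`. -/
lemma mem_Zs_of_almost_integral (g h : PowerSeries ℚ) (hh0 : h ≠ 0)
    (H : ∀ i : ℕ, h * g ^ i ∈ Zs) : g ∈ Zs := by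
  classical
  by_contra hg
  rw [mem_Zs_iff] at hg
  push Not at hg
  -- least bad index
  let n := Nat.find hg
  have hn : ∀ m : ℤ, g.coeff n ≠ m := Nat.find_spec hg
  have hlt : ∀ j < n, ∃ m : ℤ, g.coeff j = m := by
    intro j hj
    have := Nat.find_min hg hj
    push Not at this
    exact this
  set head : PowerSeries ℚ := ((trunc n g : Polynomial ℚ) : PowerSeries ℚ) with hhead
  have hheadZ : head ∈ Zs := by
    rw [mem_Zs_iff]
    intro j
    rw [hhead, Polynomial.coeff_coe, coeff_trunc]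
    split_ifs with hj
    · exact hlt j hj
    · exact ⟨0, by simp⟩
  set g1 : PowerSeries ℚ := PowerSeries.mk fun i => g.coeff (i + n) with hg1
  have hgdec : g = X ^ n * g1 + head := eq_X_pow_mul_shift_add_trunc n g
  have hg' : X ^ n * g1 = g - head := by rw [eq_sub_iff_add_eq]; exact hgdec.symm
  have H' : ∀ i : ℕ, h * (X ^ n * g1) ^ i ∈ Zs := by
    intro i
    rw [hg', sub_eq_add_neg, add_pow, Finset.mul_sum]
    refine Subring.sum_mem _ fun j _ => ?_
    have : h * (g ^ j * (-head) ^ (i - j) * ((i.choose j : ℕ) : PowerSeries ℚ))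
        = (h * g ^ j) * ((-head) ^ (i - j) * ((i.choose j : ℕ) : PowerSeries ℚ)) := by ring
    rw [this]
    exact Subring.mul_mem _ (H j)
      (Subring.mul_mem _ (Subring.pow_mem _ (Subring.neg_mem _ hheadZ) _) (natCast_mem _ _))
  -- decompose h
  set t := h.order.toNat with ht
  obtain ⟨h1, hh1⟩ : X ^ t ∣ h := X_pow_order_dvd
  have hb : h1.coeff 0 ≠ 0 := by
    have := coeff_order hh0
    rw [← ht, hh1] at this
    have h2 := coeff_X_pow_mul h1 t 0
    rw [zero_add] at h2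
    rwa [h2] at this
  have hlead : ∀ i : ℕ, ∃ m : ℤ, h1.coeff 0 * (g.coeff n) ^ i = m := by
    intro i
    have h3 := (mem_Zs_iff _).1 (H' i) (0 + (t + n * i))
    have h4 : h * (X ^ n * g1) ^ i = X ^ (t + n * i) * (h1 * g1 ^ i) := by
      rw [hh1, mul_pow, pow_add, pow_mul]; ring
    rw [h4, coeff_X_pow_mul] at h3
    have h5 : (h1 * g1 ^ i).coeff 0 = h1.coeff 0 * (g.coeff n) ^ i := by
      simp only [coeff_zero_eq_constantCoeff, map_mul, map_pow]
      congr 2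
      rw [← coeff_zero_eq_constantCoeff_apply, hg1, coeff_mk, zero_add]
    rwa [h5] at h3
  obtain ⟨m, hm⟩ := rat_isInt_of_forall_pow _ _ hb hlead
  exact hn m hm

/-- integral over `ℤ⟦X⟧` and in the fraction field implies in `ℤ⟦X⟧`. -/
lemma mem_Zs_of_monic (g D : PowerSeries ℚ) (hD0 : D ≠ 0) (hD : D ∈ Zs) (hDg : D * g ∈ Zs)
    (μ : ℕ) (C : ℕ → PowerSeries ℚ) (hC : ∀ i < μ, C i ∈ Zs)
    (hmonic : g ^ μ + ∑ i ∈ Finset.range μ, C i * g ^ i = 0) : g ∈ Zs := by
  refine mem_Zs_of_almost_integral g (D ^ μ) (pow_ne_zero _ hD0) ?_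
  intro i
  induction i using Nat.strong_induction_on with
  | _ i ih =>
    by_cases hi : i ≤ μ
    · have : D ^ μ * g ^ i = D ^ (μ - i) * (D * g) ^ i := by
        rw [mul_pow, ← mul_assoc, ← pow_add, Nat.sub_add_cancel hi]
      rw [this]
      exact Subring.mul_mem _ (Subring.pow_mem _ hD _) (Subring.pow_mem _ hDg _)
    · push Not at hi
      have h1 : g ^ μ = - ∑ j ∈ Finset.range μ, C j * g ^ j := eq_neg_of_add_eq_zero_left hmonic
      have h2 : D ^ μ * g ^ i = - ∑ j ∈ Finset.range μ, C j * (D ^ μ * g ^ (j + (i - μ))) := by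
        have : g ^ i = g ^ μ * g ^ (i - μ) := by
          rw [← pow_add, Nat.add_sub_cancel' hi.le]
        rw [this, h1, neg_mul, mul_neg, Finset.sum_mul, Finset.mul_sum]
        congr 1
        refine Finset.sum_congr rfl fun j _ => ?_
        rw [pow_add]; ring
      rw [h2]
      refine Subring.neg_mem _ (Subring.sum_mem _ fun j hj => ?_)
      have hj' : j < μ := Finset.mem_range.mp hj
      exact Subring.mul_mem _ (hC j hj') (ih _ (by omega))

/-- Coefficientwise application of a `ℚ`-linear functional. -/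
noncomputable def Lam (L : ℂ →ₗ[ℚ] ℚ) (s : PowerSeries ℂ) : PowerSeries ℚ :=
  PowerSeries.mk fun n => L (s.coeff n)

@[simp] lemma coeff_Lam (L : ℂ →ₗ[ℚ] ℚ) (s : PowerSeries ℂ) (n : ℕ) :
    (Lam L s).coeff n = L (s.coeff n) := coeff_mk _ _

lemma Lam_add (L : ℂ →ₗ[ℚ] ℚ) (s t : PowerSeries ℂ) : Lam L (s + t) = Lam L s + Lam L t := by
  ext n; simp

lemma Lam_zero (L : ℂ →ₗ[ℚ] ℚ) : Lam L 0 = 0 := by
  ext n; simp

lemma Lam_sum (L : ℂ →ₗ[ℚ] ℚ) {ι : Type*} (s : Finset ι) (F : ι → PowerSeries ℂ) :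
    Lam L (∑ i ∈ s, F i) = ∑ i ∈ s, Lam L (F i) := by
  ext n; simp

/-- the embedding `ℚ⟦X⟧ → ℂ⟦X⟧`. -/
noncomputable abbrev emb : PowerSeries ℚ →+* PowerSeries ℂ := PowerSeries.map (algebraMap ℚ ℂ)

lemma Lam_emb_mul (L : ℂ →ₗ[ℚ] ℚ) (F : PowerSeries ℚ) (s : PowerSeries ℂ) :
    Lam L (emb F * s) = F * Lam L s := by
  ext n
  rw [coeff_Lam, coeff_mul, coeff_mul, map_sum]
  refine Finset.sum_congr rfl fun p _ => ?_
  rw [coeff_map, coeff_Lam, ← Algebra.smul_def, map_smul, smul_eq_mul]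

lemma Lam_mul_emb (L : ℂ →ₗ[ℚ] ℚ) (F : PowerSeries ℚ) (s : PowerSeries ℂ) :
    Lam L (s * emb F) = Lam L s * F := by
  rw [mul_comm, Lam_emb_mul, mul_comm]

lemma Lam_one (L : ℂ →ₗ[ℚ] ℚ) (hL : L 1 = 1) : Lam L 1 = 1 := by
  ext n
  rw [coeff_Lam, coeff_one, coeff_one]
  split_ifs <;> simp [hL]

lemma exists_nat_smul_Lam_mem (s : PowerSeries ℂ)
    (hs : s ∈ Submodule.span ℂ intSeries) (L : ℂ →ₗ[ℚ] ℚ) :
    ∃ m : ℕ, m ≠ 0 ∧ (m : PowerSeries ℚ) * Lam L s ∈ Zs := by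
  induction hs using Submodule.span_induction generalizing L with
  | mem x hx =>
    refine ⟨(L 1).den, (L 1).den_nz, ?_⟩
    rw [mem_Zs_iff]
    intro n
    obtain ⟨k, hk⟩ := hx n
    refine ⟨(L 1).num * k, ?_⟩
    have h1 : ((L 1).den : PowerSeries ℚ) = PowerSeries.C ((L 1).den : ℚ) := by simp
    rw [h1, coeff_C_mul, coeff_Lam, hk]
    have h2 : ((k : ℤ) : ℂ) = (k : ℚ) • (1 : ℂ) := by simp
    rw [h2, map_smul, smul_eq_mul]
    have h3 : ((L 1).den : ℚ) * L 1 = (L 1).num := Rat.den_mul_eq_num (L 1)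
    push_cast
    rw [← h3]; ring
  | zero => exact ⟨1, one_ne_zero, by rw [Lam_zero, mul_zero]; exact Subring.zero_mem _⟩
  | add x y _ _ hx hy =>
    obtain ⟨m, hm0, hm⟩ := hx L
    obtain ⟨m', hm0', hm'⟩ := hy L
    refine ⟨m * m', mul_ne_zero hm0 hm0', ?_⟩
    rw [Lam_add]
    have : ((m * m' : ℕ) : PowerSeries ℚ) * (Lam L x + Lam L y)
        = (m' : PowerSeries ℚ) * ((m : PowerSeries ℚ) * Lam L x)
          + (m : PowerSeries ℚ) * ((m' : PowerSeries ℚ) * Lam L y) := by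
      push_cast; ring
    rw [this]
    exact Subring.add_mem _ (Subring.mul_mem _ (natCast_mem _ _) hm)
      (Subring.mul_mem _ (natCast_mem _ _) hm')
  | smul a x _ hx =>
    have : Lam L (a • x) = Lam (L ∘ₗ (LinearMap.mulLeft ℚ a)) x := by
      ext n
      simp
    rw [this]
    exact hx _

lemma exists_functional_ne (z : ℂ) (hz : z ≠ 0) : ∃ L : ℂ →ₗ[ℚ] ℚ, L z ≠ 0 := by
  by_contra h
  push Not at h
  exact hz ((Module.forall_dual_apply_eq_zero_iff ℚ z).1 h)

lemma exists_functional_one : ∃ L : ℂ →ₗ[ℚ] ℚ, L 1 = 1 := by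
  obtain ⟨L, hL⟩ := exists_functional_ne 1 one_ne_zero
  refine ⟨(L 1)⁻¹ • L, ?_⟩
  simp [hL]

end BD

open BD in
theorem bounded_denominators (f : PowerSeries ℂ) (hf : ∀ n, ∃ r : ℚ, f.coeff n = r)
    (d : PowerSeries ℂ) (hd0 : d ≠ 0) (hd : d ∈ Submodule.span ℂ intSeries)
    (hdf : d * f ∈ Submodule.span ℂ intSeries) (μ : ℕ) (c : ℕ → PowerSeries ℂ)
    (hc : ∀ i < μ, c i ∈ Submodule.span ℂ intSeries)
    (hmonic : f ^ μ + ∑ i ∈ Finset.range μ, c i * f ^ i = 0) :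
    ∃ m : ℕ, m ≠ 0 ∧ (m : ℂ) • f ∈ intSeries := by
  classical
  -- `f` comes from `ℚ⟦X⟧`
  choose r hr using hf
  set F : PowerSeries ℚ := PowerSeries.mk r with hF
  have hfF : f = emb F := by
    ext n
    rw [coeff_map, hF, coeff_mk, hr]
    rfl
  -- the denominator
  obtain ⟨n0, hn0⟩ : ∃ n, d.coeff n ≠ 0 := by
    by_contra h
    push Not at h
    exact hd0 (PowerSeries.ext (by simpa using h))
  obtain ⟨L1, hL1⟩ := exists_functional_ne _ hn0
  obtain ⟨m1, hm1, hm1Z⟩ := exists_nat_smul_Lam_mem d hd L1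
  obtain ⟨m2, hm2, hm2Z⟩ := exists_nat_smul_Lam_mem (d * f) hdf L1
  have hD0 : Lam L1 d ≠ 0 := by
    intro h
    apply hL1
    have := congrArg (PowerSeries.coeff n0) h
    simpa using this
  have hcast : ∀ m : ℕ, m ≠ 0 → (m : PowerSeries ℚ) ≠ 0 := fun m hm => by
    intro h
    have h2 := congrArg (PowerSeries.coeff 0) h
    have h1 : (m : PowerSeries ℚ) = PowerSeries.C (m : ℚ) := by simp
    rw [h1] at h2
    simp at h2
    exact hm h2
  set D : PowerSeries ℚ := (m2 : PowerSeries ℚ) * ((m1 : PowerSeries ℚ) * Lam L1 d) with hD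
  have hDne : D ≠ 0 := mul_ne_zero (hcast _ hm2) (mul_ne_zero (hcast _ hm1) hD0)
  have hDZ : D ∈ Zs := Subring.mul_mem _ (natCast_mem _ _) hm1Z
  have hDF : D * F ∈ Zs := by
    have : D * F = (m1 : PowerSeries ℚ) * ((m2 : PowerSeries ℚ) * Lam L1 (d * f)) := by
      rw [hfF, Lam_mul_emb, hD]; ring
    rw [this]
    exact Subring.mul_mem _ (natCast_mem _ _) hm2Z
  -- the monic equation
  obtain ⟨L2, hL2⟩ := exists_functional_one
  have hmon : F ^ μ + ∑ i ∈ Finset.range μ, Lam L2 (c i) * F ^ i = 0 := by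
    have h1 := congrArg (Lam L2) hmonic
    rw [Lam_add, Lam_zero, Lam_sum] at h1
    have h2 : Lam L2 (f ^ μ) = F ^ μ := by
      rw [hfF, ← map_pow, ← mul_one (emb (F ^ μ)), Lam_emb_mul, Lam_one L2 hL2, mul_one]
    have h3 : ∀ i, Lam L2 (c i * f ^ i) = Lam L2 (c i) * F ^ i := by
      intro i
      rw [hfF, ← map_pow, Lam_mul_emb]
    rw [h2] at h1
    simpa only [h3] using h1
  have hex : ∀ i, ∃ m : ℕ, m ≠ 0 ∧ (i < μ → (m : PowerSeries ℚ) * Lam L2 (c i) ∈ Zs) := by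
    intro i
    by_cases hi : i < μ
    · obtain ⟨m, hm, hmZ⟩ := exists_nat_smul_Lam_mem (c i) (hc i hi) L2
      exact ⟨m, hm, fun _ => hmZ⟩
    · exact ⟨1, one_ne_zero, fun h => absurd h hi⟩
  choose mm hmm0 hmmZ using hex
  set M : ℕ := ∏ i ∈ Finset.range μ, mm i with hM
  have hM0 : M ≠ 0 := Finset.prod_ne_zero_iff.mpr fun i _ => hmm0 i
  have hMZ : ∀ i < μ, (M : PowerSeries ℚ) * Lam L2 (c i) ∈ Zs := by
    intro i hi
    have hdvd : mm i ∣ M := Finset.dvd_prod_of_mem _ (Finset.mem_range.mpr hi)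
    obtain ⟨q, hq⟩ := hdvd
    have : (M : PowerSeries ℚ) * Lam L2 (c i)
        = (q : PowerSeries ℚ) * ((mm i : PowerSeries ℚ) * Lam L2 (c i)) := by
      rw [hq]; push_cast; ring
    rw [this]
    exact Subring.mul_mem _ (natCast_mem _ _) (hmmZ i hi)
  -- apply the integrality lemma to `g = M * F`
  have hg : (M : PowerSeries ℚ) * F ∈ Zs := by
    refine mem_Zs_of_monic _ D hDne hDZ ?_ μ
      (fun i => (M : PowerSeries ℚ) ^ (μ - i - 1) * ((M : PowerSeries ℚ) * Lam L2 (c i))) ?_ ?_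
    · have : D * ((M : PowerSeries ℚ) * F) = (M : PowerSeries ℚ) * (D * F) := by ring
      rw [this]
      exact Subring.mul_mem _ (natCast_mem _ _) hDF
    · intro i hi
      exact Subring.mul_mem _ (Subring.pow_mem _ (natCast_mem _ _) _) (hMZ i hi)
    · have : ((M : PowerSeries ℚ) * F) ^ μ + ∑ i ∈ Finset.range μ,
          (M : PowerSeries ℚ) ^ (μ - i - 1) * ((M : PowerSeries ℚ) * Lam L2 (c i))
            * ((M : PowerSeries ℚ) * F) ^ i
          = (M : PowerSeries ℚ) ^ μ * (F ^ μ + ∑ i ∈ Finset.range μ, Lam L2 (c i) * F ^ i) := by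
        rw [mul_add, Finset.mul_sum, mul_pow]
        congr 1
        refine Finset.sum_congr rfl fun i hi => ?_
        have hi' : i < μ := Finset.mem_range.mp hi
        have : (M : PowerSeries ℚ) ^ μ
            = (M : PowerSeries ℚ) ^ (μ - i - 1) * (M : PowerSeries ℚ) * (M : PowerSeries ℚ) ^ i := by
          rw [← pow_succ, ← pow_add]
          congr 1
          omega
        rw [this, mul_pow]; ring
      rw [this, hmon, mul_zero]
  refine ⟨M, hM0, ?_⟩
  intro n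
  obtain ⟨k, hk⟩ := (mem_Zs_iff _).1 hg n
  refine ⟨k, ?_⟩
  have h1 : (M : PowerSeries ℚ) = PowerSeries.C (M : ℚ) := by simp
  rw [h1, coeff_C_mul, hF, coeff_mk] at hk
  rw [map_smul, hr, smul_eq_mul]
  have := congrArg (fun x : ℚ => (x : ℂ)) hk
  push_cast at this
  exact this

end Fermat.Agent.S23
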