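import Mathlib
import Fermat.Agent.S23.Defs

/-!
Predicates "the function `g` is (the underlying function of) a modular / cusp form of weight `w`",
with closure properties; sums over permuted families are level-one forms.
-/

set_option autoImplicit false

open UpperHalfPlane ModularForm
open scoped MatrixGroups Manifold

namespace Fermat.Agent.S23

/-- `g` is the underlying function of a modular form of weight `w` for `Γ`. -/
def IsMF (Γ : Subgroup (GL (Fin 2) ℝ)) (w : ℤ) (g : ℍ → ℂ) : Prop :=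
  ∃ G : ModularForm Γ w, ⇑G = g

/-- `g` is the underlying function of a cusp form of weight `w` for `Γ`. -/
def IsCF (Γ : Subgroup (GL (Fin 2) ℝ)) (w : ℤ) (g : ℍ → ℂ) : Prop :=
  ∃ G : CuspForm Γ w, ⇑G = g

variable {Γ : Subgroup (GL (Fin 2) ℝ)} {w w₁ w₂ : ℤ} {g g₁ g₂ : ℍ → ℂ}

lemma IsMF.coe (G : ModularForm Γ w) : IsMF Γ w ⇑G := ⟨G, rfl⟩

lemma IsCF.coe (G : CuspForm Γ w) : IsCF Γ w ⇑G := ⟨G, rfl⟩

lemma IsCF.isMF (h : IsCF Γ w g) : IsMF Γ w g := by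
  obtain ⟨G, rfl⟩ := h
  exact ⟨ModularFormClass.modularForm G, rfl⟩

lemma IsMF.zero : IsMF Γ w 0 := ⟨0, rfl⟩

lemma IsMF.add (h₁ : IsMF Γ w g₁) (h₂ : IsMF Γ w g₂) : IsMF Γ w (g₁ + g₂) := by
  obtain ⟨G₁, rfl⟩ := h₁
  obtain ⟨G₂, rfl⟩ := h₂
  exact ⟨G₁ + G₂, rfl⟩

lemma IsMF.neg (h : IsMF Γ w g) : IsMF Γ w (-g) := by
  obtain ⟨G, rfl⟩ := h
  exact ⟨-G, rfl⟩

lemma IsMF.smul [Γ.HasDetOne] (c : ℂ) (h : IsMF Γ w g) : IsMF Γ w (c • g) := by
  obtain ⟨G, rfl⟩ := h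
  exact ⟨c • G, rfl⟩

lemma IsMF.one [Γ.HasDetPlusMinusOne] : IsMF Γ 0 1 := ⟨1, rfl⟩

lemma IsMF.mul [Γ.HasDetPlusMinusOne] (h₁ : IsMF Γ w₁ g₁) (h₂ : IsMF Γ w₂ g₂) :
    IsMF Γ (w₁ + w₂) (g₁ * g₂) := by
  obtain ⟨G₁, rfl⟩ := h₁
  obtain ⟨G₂, rfl⟩ := h₂
  exact ⟨G₁.mul G₂, rfl⟩

lemma IsMF.pow [Γ.HasDetPlusMinusOne] (h : IsMF Γ w g) (n : ℕ) : IsMF Γ (n * w) (g ^ n) := by
  obtain ⟨G, rfl⟩ := h
  exact ⟨G.pow n, by simp⟩

lemma IsMF.sum {ι : Type*} (s : Finset ι) {F : ι → ℍ → ℂ} (h : ∀ i ∈ s, IsMF Γ w (F i)) :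
    IsMF Γ w (∑ i ∈ s, F i) := by
  classical
  induction s using Finset.induction_on with
  | empty => simpa using IsMF.zero
  | insert a s ha ih =>
    rw [Finset.sum_insert ha]
    exact (h a (Finset.mem_insert_self a s)).add
      (ih fun i hi => h i (Finset.mem_insert_of_mem hi))

lemma IsMF.prod [Γ.HasDetPlusMinusOne] {ι : Type*} (s : Finset ι) {F : ι → ℍ → ℂ} {k : ι → ℤ}
    (h : ∀ i ∈ s, IsMF Γ (k i) (F i)) : IsMF Γ (∑ i ∈ s, k i) (∏ i ∈ s, F i) := by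
  classical
  induction s using Finset.induction_on with
  | empty => simpa using IsMF.one
  | insert a s ha ih =>
    rw [Finset.prod_insert ha, Finset.sum_insert ha]
    exact (h a (Finset.mem_insert_self a s)).mul
      (ih fun i hi => h i (Finset.mem_insert_of_mem hi))

lemma IsMF.mono {Γ' : Subgroup (GL (Fin 2) ℝ)} (hΓ : Γ' ≤ Γ) (h : IsMF Γ w g) : IsMF Γ' w g := by
  obtain ⟨G, rfl⟩ := h
  exact ⟨{ toFun := G
           slash_action_eq' := fun γ hγ => G.slash_action_eq' γ (hΓ hγ)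
           holo' := G.holo'
           bdd_at_cusps' := fun hc => G.bdd_at_cusps' (hc.mono hΓ) }, rfl⟩

/-- The determinant of a matrix of modular forms whose `(r,c)` entry has weight `a r + b c`. -/
lemma IsMF.det [Γ.HasDetOne] {n : Type*} [Fintype n] [DecidableEq n]
    (A : Matrix n n (ℍ → ℂ)) (a b : n → ℤ) (h : ∀ r c, IsMF Γ (a r + b c) (A r c)) :
    IsMF Γ (∑ r, a r + ∑ c, b c) A.det := by
  rw [Matrix.det_apply]
  refine IsMF.sum _ fun π _ => ?_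
  have hprod : IsMF Γ (∑ r, a r + ∑ c, b c) (∏ i, A (π i) i) := by
    have := IsMF.prod (Γ := Γ) Finset.univ (F := fun i => A (π i) i)
      (k := fun i => a (π i) + b i) fun i _ => h (π i) i
    rwa [Finset.sum_add_distrib, Equiv.sum_comp π a] at this
  rcases Int.units_eq_one_or (Equiv.Perm.sign π) with h1 | h1
  · rw [h1, one_smul]; exact hprod
  · rw [h1, Units.neg_smul, one_smul]; exact hprod.neg

end Fermat.Agent.S23
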