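import Mathlib
import Fermat.Agent.S23.IsMF

/-!
Sums over families of functions permuted by the slash action of `SL(2,ℤ)` are level-one forms.
-/

set_option autoImplicit false

open UpperHalfPlane ModularForm
open scoped MatrixGroups Manifold

namespace Fermat.Agent.S23

lemma isMF_sum_of_perm {ι : Type} [Fintype ι] {w : ℤ} (Φ : ι → ℍ → ℂ)
    (hperm : ∀ h ∈ 𝒮ℒ, ∃ e : ι ≃ ι, ∀ i, Φ i ∣[w] h = Φ (e i))
    (hholo : ∀ i, MDiff (Φ i)) (hbdd : ∀ i, IsBoundedAtImInfty (Φ i)) :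
    IsMF 𝒮ℒ w (∑ i, Φ i) := by
  have hinv : ∀ h ∈ 𝒮ℒ, (∑ i, Φ i) ∣[w] h = ∑ i, Φ i := by
    intro h hh
    obtain ⟨e, he⟩ := hperm h hh
    rw [SlashAction.sum_slash]
    simp_rw [he]
    exact Equiv.sum_comp e Φ
  refine ⟨{ toFun := ∑ i, Φ i
            slash_action_eq' := hinv
            holo' := ?_
            bdd_at_cusps' := ?_ }, rfl⟩
  · exact MDifferentiable.sum (t := Finset.univ) (f := Φ) fun i _ => hholo i
  · intro c hc
    rw [Subgroup.IsArithmetic.isCusp_iff_isCusp_SL2Z] at hc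
    rw [OnePoint.isBoundedAt_iff_forall_SL2Z hc]
    intro γ _
    have h1 : (∑ i, Φ i) ∣[w] γ = ∑ i, Φ i := hinv _ ⟨γ, rfl⟩
    rw [h1]
    unfold IsBoundedAtImInfty at *
    exact (Filter.boundedFilterSubmodule ℂ atImInfty).sum_mem fun i _ => hbdd i

lemma isCF_sum_of_perm {ι : Type} [Fintype ι] {w : ℤ} (Φ : ι → ℍ → ℂ)
    (hperm : ∀ h ∈ 𝒮ℒ, ∃ e : ι ≃ ι, ∀ i, Φ i ∣[w] h = Φ (e i))
    (hholo : ∀ i, MDiff (Φ i)) (hzero : ∀ i, IsZeroAtImInfty (Φ i)) :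
    IsCF 𝒮ℒ w (∑ i, Φ i) := by
  have hinv : ∀ h ∈ 𝒮ℒ, (∑ i, Φ i) ∣[w] h = ∑ i, Φ i := by
    intro h hh
    obtain ⟨e, he⟩ := hperm h hh
    rw [SlashAction.sum_slash]
    simp_rw [he]
    exact Equiv.sum_comp e Φ
  refine ⟨{ toFun := ∑ i, Φ i
            slash_action_eq' := hinv
            holo' := ?_
            zero_at_cusps' := ?_ }, rfl⟩
  · exact MDifferentiable.sum (t := Finset.univ) (f := Φ) fun i _ => hholo i
  · intro c hc
    rw [Subgroup.IsArithmetic.isCusp_iff_isCusp_SL2Z] at hc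
    rw [OnePoint.isZeroAt_iff_forall_SL2Z hc]
    intro γ _
    have h1 : (∑ i, Φ i) ∣[w] γ = ∑ i, Φ i := hinv _ ⟨γ, rfl⟩
    rw [h1]
    unfold IsZeroAtImInfty Filter.ZeroAtFilter at *
    have := tendsto_finsetSum (Finset.univ : Finset ι) fun i _ => hzero i
    simpa [Finset.sum_fn] using this

end Fermat.Agent.S23
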