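import Mathlib
import Fermat.Agent.S23.SymSum

/-!
A cusp form for an arithmetic group satisfies a monic polynomial equation whose lower coefficients
are level-one cusp forms.
-/

set_option autoImplicit false

open UpperHalfPlane ModularForm SlashInvariantForm
open scoped MatrixGroups Manifold

namespace Fermat.Agent.S23

variable {Γ : Subgroup (GL (Fin 2) ℝ)} {k : ℤ}

section quotientFunc

variable {F : Type*} [FunLike F ℍ ℂ] (f : F)

lemma mdiff_quotientFunc [ModularFormClass F Γ k] (q : 𝒮ℒ ⧸ (Γ.subgroupOf 𝒮ℒ)) :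
    MDiff (quotientFunc (ℋ := 𝒮ℒ) f q) := by
  induction q using Quotient.inductionOn with
  | h r => exact (ModularForm.translate f r.val⁻¹).holo'

lemma isBoundedAtImInfty_quotientFunc [Γ.IsArithmetic] [ModularFormClass F Γ k]
    (q : 𝒮ℒ ⧸ (Γ.subgroupOf 𝒮ℒ)) :
    IsBoundedAtImInfty (quotientFunc (ℋ := 𝒮ℒ) f q) := by
  induction q using Quotient.inductionOn with
  | h r =>
    obtain ⟨r, γ, rfl⟩ := r
    have := ModularFormClass.bdd_at_infty_slash f γ⁻¹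
    rw [SL_slash, map_inv] at this
    exact this

lemma isZeroAtImInfty_quotientFunc [Γ.IsArithmetic] [CuspFormClass F Γ k]
    (q : 𝒮ℒ ⧸ (Γ.subgroupOf 𝒮ℒ)) :
    IsZeroAtImInfty (quotientFunc (ℋ := 𝒮ℒ) f q) := by
  induction q using Quotient.inductionOn with
  | h r =>
    obtain ⟨r, γ, rfl⟩ := r
    have := CuspFormClass.zero_at_infty_slash f γ⁻¹
    rw [SL_slash, map_inv] at this
    exact this

lemma quotientFunc_one [SlashInvariantFormClass F Γ k] :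
    quotientFunc (ℋ := 𝒮ℒ) f (⟦1⟧ : 𝒮ℒ ⧸ (Γ.subgroupOf 𝒮ℒ)) = ⇑f := by
  simp

end quotientFunc

section esymm

variable [Γ.IsArithmetic] (f : CuspForm Γ k)

open Classical in
/-- The `j`-th elementary symmetric function of the `SL(2,ℤ)`-translates of `f`. -/
noncomputable def esymmFun (j : ℕ) : ℍ → ℂ :=
  letI := Fintype.ofFinite (𝒮ℒ ⧸ (Γ.subgroupOf 𝒮ℒ))
  ∑ T ∈ Finset.powersetCard j (Finset.univ : Finset (𝒮ℒ ⧸ (Γ.subgroupOf 𝒮ℒ))),
    ∏ q ∈ T, quotientFunc (ℋ := 𝒮ℒ) f q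

lemma isCF_esymmFun {j : ℕ} (hj : 0 < j) : IsCF 𝒮ℒ (k * j) (esymmFun f j) := by
  classical
  let _ := Fintype.ofFinite (𝒮ℒ ⧸ (Γ.subgroupOf 𝒮ℒ))
  unfold esymmFun
  rw [← Finset.sum_coe_sort]
  refine isCF_sum_of_perm _ ?_ ?_ ?_
  · intro h hh
    let π : Equiv.Perm (𝒮ℒ ⧸ (Γ.subgroupOf 𝒮ℒ)) := MulAction.toPerm (⟨h, hh⟩ : 𝒮ℒ)⁻¹
    refine ⟨Equiv.subtypeEquiv (Equiv.finsetCongr π) ?_, ?_⟩
    · intro T
      simp [Finset.mem_powersetCard]
    · rintro ⟨T, hT⟩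
      have hcard : T.card = j := (Finset.mem_powersetCard.mp hT).2
      simp only [Equiv.subtypeEquiv_apply, Equiv.finsetCongr_apply]
      rw [← hcard, ModularForm.prod_slash, Finset.prod_map]
      simp [quotientFunc_smul f hh, Subgroup.HasDetPlusMinusOne.abs_det hh,
        -Matrix.GeneralLinearGroup.val_det_apply, π]
  · rintro ⟨T, hT⟩
    exact MDifferentiable.prod fun q _ => mdiff_quotientFunc f q
  · rintro ⟨T, hT⟩
    have hcard : T.card = j := (Finset.mem_powersetCard.mp hT).2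
    have hne : T.Nonempty := Finset.card_pos.mp (hcard ▸ hj)
    unfold IsZeroAtImInfty Filter.ZeroAtFilter
    have := tendsto_finsetProd T fun q _ => isZeroAtImInfty_quotientFunc f q
    rw [Finset.prod_const, zero_pow (by omega : T.card ≠ 0)] at this
    simpa [Finset.prod_fn] using this

lemma esymmFun_apply (j : ℕ) (z : ℍ) :
    letI := Fintype.ofFinite (𝒮ℒ ⧸ (Γ.subgroupOf 𝒮ℒ))
    esymmFun f j z = ((Finset.univ : Finset (𝒮ℒ ⧸ (Γ.subgroupOf 𝒮ℒ))).val.map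
      fun q => quotientFunc (ℋ := 𝒮ℒ) f q z).esymm j := by
  classical
  rw [Finset.esymm_map_val]
  simp [esymmFun, Finset.sum_apply, Finset.prod_apply]
  
theorem exists_monic_relation (f : CuspForm Γ k) :
    ∃ (μ : ℕ) (c : ℕ → ℍ → ℂ),
      (∀ i < μ, ∃ C : CuspForm 𝒮ℒ (k * (μ - i)), ⇑C = c i) ∧
      ∀ z, f z ^ μ + ∑ i ∈ Finset.range μ, c i z * f z ^ i = 0 := by
  classical
  let _ := Fintype.ofFinite (𝒮ℒ ⧸ (Γ.subgroupOf 𝒮ℒ))
  refine ⟨Fintype.card (𝒮ℒ ⧸ (Γ.subgroupOf 𝒮ℒ)),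
    fun i => ((-1 : ℂ) ^ (Fintype.card (𝒮ℒ ⧸ (Γ.subgroupOf 𝒮ℒ)) - i)) •
      esymmFun f (Fintype.card (𝒮ℒ ⧸ (Γ.subgroupOf 𝒮ℒ)) - i), ?_, ?_⟩
  · intro i hi
    have h1 := isCF_esymmFun f (j := Fintype.card (𝒮ℒ ⧸ (Γ.subgroupOf 𝒮ℒ)) - i) (by omega)
    rw [Nat.cast_sub hi.le] at h1
    obtain ⟨C, hC⟩ := h1
    exact ⟨((-1 : ℂ) ^ (Fintype.card (𝒮ℒ ⧸ (Γ.subgroupOf 𝒮ℒ)) - i)) • C, by
      beta_reduce; rw [← hC]; rfl⟩
  · intro z
    set μ := Fintype.card (𝒮ℒ ⧸ (Γ.subgroupOf 𝒮ℒ)) with hμ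
    set s : Multiset ℂ := (Finset.univ : Finset (𝒮ℒ ⧸ (Γ.subgroupOf 𝒮ℒ))).val.map
      fun q => quotientFunc (ℋ := 𝒮ℒ) f q z with hs
    have hcard : Multiset.card s = μ := by simp [hs, hμ]
    have h1 := congrArg (Polynomial.eval (f z)) (Multiset.prod_X_sub_X_eq_sum_esymm s)
    have h0 : Polynomial.eval (f z) (s.map fun t => Polynomial.X - Polynomial.C t).prod = 0 := by
      rw [Polynomial.eval_multiset_prod]
      apply Multiset.prod_eq_zero
      simp only [Multiset.mem_map]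
      refine ⟨Polynomial.X - Polynomial.C (f z), ⟨f z, ?_, rfl⟩, by simp⟩
      simp only [hs, Multiset.mem_map]
      exact ⟨⟦1⟧, Finset.mem_univ _, by rw [quotientFunc_one]⟩
    rw [h0, hcard, Polynomial.eval_finsetSum, Finset.sum_range_succ', 
      ← Finset.sum_range_reflect] at h1
    simp only [Polynomial.eval_mul, Polynomial.eval_pow, Polynomial.eval_neg, Polynomial.eval_one,
      Polynomial.eval_C, Polynomial.eval_X, pow_zero, one_mul,
      Nat.sub_zero] at h1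
    have hz : s.esymm 0 = 1 := by simp [Multiset.esymm]
    rw [hz, one_mul] at h1
    rw [add_comm, h1]
    congr 1
    refine Finset.sum_congr rfl fun i hi => ?_
    have hi' : i < μ := Finset.mem_range.mp hi
    have e1 : μ - 1 - i + 1 = μ - i := by omega
    have e2 : μ - (μ - i) = i := by omega
    rw [e1, e2]
    show ((-1 : ℂ) ^ (μ - i) • esymmFun f (μ - i)) z * f z ^ i = _
    rw [Pi.smul_apply, esymmFun_apply, smul_eq_mul]
    ring

end esymm

end Fermat.Agent.S23
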