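import Mathlib
import Fermat.Agent.S23.Monic

/-!
If `u` is a modular form for `Γ` with trivial stabiliser in `SL(2,ℤ)/Γ`, every modular form `f`
for `Γ` satisfies `d * f = ∑ j, b j * u ^ j` with `d ≠ 0` and `b j` level-one modular forms.
-/

set_option autoImplicit false

open UpperHalfPlane ModularForm SlashInvariantForm
open scoped MatrixGroups Manifold

namespace Fermat.Agent.S23

lemma mul_slash_of_mem {h : GL (Fin 2) ℝ} (hh : h ∈ 𝒮ℒ) (k₁ k₂ : ℤ) (g₁ g₂ : ℍ → ℂ) :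
    (g₁ * g₂) ∣[k₁ + k₂] h = (g₁ ∣[k₁] h) * (g₂ ∣[k₂] h) := by
  obtain ⟨γ, rfl⟩ := hh
  exact mul_slash_SL2 k₁ k₂ γ g₁ g₂

lemma pow_slash_of_mem {h : GL (Fin 2) ℝ} (hh : h ∈ 𝒮ℒ) (l : ℤ) (g : ℍ → ℂ) (n : ℕ) :
    (g ^ n) ∣[l * n] h = (g ∣[l] h) ^ n := by
  induction n with
  | zero =>
    obtain ⟨γ, rfl⟩ := hh
    simp only [pow_zero, Nat.cast_zero, mul_zero]
    exact is_invariant_one' γ
  | succ n ih =>
    rw [pow_succ, pow_succ, ← ih, ← mul_slash_of_mem hh]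
    congr 1
    push_cast
    ring

/-- linear algebra identity behind Lagrange interpolation -/
lemma vandermonde_cramer {n : ℕ} (v φ : Fin n → ℂ) :
    (Matrix.vandermonde v).mulVec
      (Matrix.cramer ((Matrix.vandermonde v).transpose * Matrix.vandermonde v)
        ((Matrix.vandermonde v).transpose.mulVec φ)) =
      ((Matrix.vandermonde v).transpose * Matrix.vandermonde v).det • φ := by
  set V := Matrix.vandermonde v
  rw [Matrix.cramer_eq_adjugate_mulVec, Matrix.adjugate_mul_distrib, Matrix.mulVec_mulVec,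
    Matrix.mulVec_mulVec, ← Matrix.mul_assoc, Matrix.mul_adjugate,
    Matrix.mul_assoc, Matrix.adjugate_mul, Matrix.det_mul]
  simp [Matrix.smul_mulVec, smul_smul]

variable {Γ : Subgroup (GL (Fin 2) ℝ)} [Γ.IsArithmetic] {k l : ℤ}

lemma quotientFunc_injective (u : ModularForm Γ l)
    (hu : ∀ γ ∈ 𝒮ℒ, (⇑u ∣[l] γ = ⇑u) → γ ∈ Γ) :
    Function.Injective (quotientFunc (ℋ := 𝒮ℒ) u : 𝒮ℒ ⧸ (Γ.subgroupOf 𝒮ℒ) → ℍ → ℂ) := by
  intro q q'
  induction q using Quotient.inductionOn with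
  | h g =>
  induction q' using Quotient.inductionOn with
  | h g' =>
    intro h
    simp only [quotientFunc_mk] at h
    have h2 : ⇑u ∣[l] (g.val⁻¹ * g'.val) = ⇑u := by
      rw [SlashAction.slash_mul, h, ← SlashAction.slash_mul]
      simp
    have h3 := hu _ (mul_mem (inv_mem g.2) g'.2) h2
    exact QuotientGroup.eq.mpr (by simpa [Subgroup.mem_subgroupOf] using h3)

/-- there is a point where all translates of `u` take distinct values -/
lemma exists_injective_quotientFunc (u : ModularForm Γ l)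
    (hu : ∀ γ ∈ 𝒮ℒ, (⇑u ∣[l] γ = ⇑u) → γ ∈ Γ) :
    ∃ z : ℍ, Function.Injective
      (fun q : 𝒮ℒ ⧸ (Γ.subgroupOf 𝒮ℒ) => quotientFunc (ℋ := 𝒮ℒ) u q z) := by
  classical
  let _ := Fintype.ofFinite (𝒮ℒ ⧸ (Γ.subgroupOf 𝒮ℒ))
  have hne : ∏ p ∈ (Finset.univ : Finset (𝒮ℒ ⧸ (Γ.subgroupOf 𝒮ℒ))).offDiag,
      (quotientFunc (ℋ := 𝒮ℒ) u p.1 - quotientFunc (ℋ := 𝒮ℒ) u p.2) ≠ 0 := by
    rw [Ne, UpperHalfPlane.prod_eq_zero_iff]
    · rintro ⟨⟨q, q'⟩, hp, h0⟩
      exact (Finset.mem_offDiag.mp hp).2.2 (quotientFunc_injective u hu (sub_eq_zero.mp h0))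
    · intro p _
      exact (mdiff_quotientFunc u p.1).sub (mdiff_quotientFunc u p.2)
  obtain ⟨z, hz⟩ := Function.ne_iff.mp hne
  refine ⟨z, fun q q' hqq => ?_⟩
  by_contra hcon
  apply hz
  rw [Finset.prod_apply]
  exact Finset.prod_eq_zero (i := (q, q')) (by simp [hcon]) (by simpa [sub_eq_zero] using hqq)

lemma isMF_sum_pow (u : ModularForm Γ l) (n : ℕ) :
    letI := Fintype.ofFinite (𝒮ℒ ⧸ (Γ.subgroupOf 𝒮ℒ))
    IsMF 𝒮ℒ (l * n) (∑ q : 𝒮ℒ ⧸ (Γ.subgroupOf 𝒮ℒ), quotientFunc (ℋ := 𝒮ℒ) u q ^ n) := by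
  let _ := Fintype.ofFinite (𝒮ℒ ⧸ (Γ.subgroupOf 𝒮ℒ))
  refine isMF_sum_of_perm _ ?_ ?_ ?_
  · intro h hh
    refine ⟨MulAction.toPerm (⟨h, hh⟩ : 𝒮ℒ)⁻¹, fun q => ?_⟩
    rw [pow_slash_of_mem hh, quotientFunc_smul u hh]
    rfl
  · intro q
    exact (mdiff_quotientFunc u q).pow n
  · intro q
    exact (Filter.boundedFilterSubalgebra ℂ atImInfty).pow_mem
      (isBoundedAtImInfty_quotientFunc u q) n

lemma isMF_sum_mul_pow (f : ModularForm Γ k) (u : ModularForm Γ l) (n : ℕ) :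
    letI := Fintype.ofFinite (𝒮ℒ ⧸ (Γ.subgroupOf 𝒮ℒ))
    IsMF 𝒮ℒ (k + l * n) (∑ q : 𝒮ℒ ⧸ (Γ.subgroupOf 𝒮ℒ),
      quotientFunc (ℋ := 𝒮ℒ) f q * quotientFunc (ℋ := 𝒮ℒ) u q ^ n) := by
  let _ := Fintype.ofFinite (𝒮ℒ ⧸ (Γ.subgroupOf 𝒮ℒ))
  refine isMF_sum_of_perm _ ?_ ?_ ?_
  · intro h hh
    refine ⟨MulAction.toPerm (⟨h, hh⟩ : 𝒮ℒ)⁻¹, fun q => ?_⟩
    rw [mul_slash_of_mem hh, pow_slash_of_mem hh, quotientFunc_smul u hh, quotientFunc_smul f hh]
    rfl
  · intro q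
    exact (mdiff_quotientFunc f q).mul ((mdiff_quotientFunc u q).pow n)
  · intro q
    exact (Filter.boundedFilterSubalgebra ℂ atImInfty).mul_mem
      (isBoundedAtImInfty_quotientFunc f q)
      ((Filter.boundedFilterSubalgebra ℂ atImInfty).pow_mem
        (isBoundedAtImInfty_quotientFunc u q) n)

theorem exists_fraction (f : ModularForm Γ k) (u : ModularForm Γ l)
    (hu : ∀ γ ∈ 𝒮ℒ, (⇑u ∣[l] γ = ⇑u) → γ ∈ Γ) :
    ∃ (w : ℤ) (d : ModularForm 𝒮ℒ w) (μ : ℕ) (b : ℕ → ℍ → ℂ), d ≠ 0 ∧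
      (∀ j < μ, ∃ B : ModularForm 𝒮ℒ (w + k - l * j), ⇑B = b j) ∧
      ∀ z, d z * f z = ∑ j ∈ Finset.range μ, b j z * u z ^ j := by
  classical
  let _ := Fintype.ofFinite (𝒮ℒ ⧸ (Γ.subgroupOf 𝒮ℒ))
  set μ := Fintype.card (𝒮ℒ ⧸ (Γ.subgroupOf 𝒮ℒ)) with hμ
  let e : (𝒮ℒ ⧸ (Γ.subgroupOf 𝒮ℒ)) ≃ Fin μ := Fintype.equivFin _
  let U : 𝒮ℒ ⧸ (Γ.subgroupOf 𝒮ℒ) → ℍ → ℂ := fun q => quotientFunc (ℋ := 𝒮ℒ) u q
  let Fq : 𝒮ℒ ⧸ (Γ.subgroupOf 𝒮ℒ) → ℍ → ℂ := fun q => quotientFunc (ℋ := 𝒮ℒ) f q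
  let M : Matrix (Fin μ) (Fin μ) (ℍ → ℂ) := fun a b => ∑ q, U q ^ (a.val + b.val)
  let t : Fin μ → ℍ → ℂ := fun a => ∑ q, Fq q * U q ^ a.val
  have hM : ∀ a b : Fin μ, IsMF 𝒮ℒ (l * a.val + l * b.val) (M a b) := by
    intro a b
    have := isMF_sum_pow u (a.val + b.val)
    rwa [Nat.cast_add, mul_add] at this
  have ht : ∀ a : Fin μ, IsMF 𝒮ℒ (l * a.val + k) (t a) := by
    intro a
    have := isMF_sum_mul_pow f u a.val
    rwa [add_comm] at this
  set w : ℤ := ∑ r : Fin μ, l * (r.val : ℤ) + ∑ c : Fin μ, l * (c.val : ℤ) with hw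
  obtain ⟨d, hd⟩ := IsMF.det M (fun r => l * (r.val : ℤ)) (fun c => l * (c.val : ℤ)) hM
  -- pointwise description
  have hMz : ∀ z : ℍ, (Pi.evalRingHom (fun _ : ℍ => ℂ) z).mapMatrix M =
      (Matrix.vandermonde fun a => U (e.symm a) z).transpose *
        Matrix.vandermonde fun a => U (e.symm a) z := by
    intro z
    ext a b
    rw [RingHom.mapMatrix_apply, Matrix.map_apply, Pi.evalRingHom_apply]
    show (∑ q, U q ^ (a.val + b.val)) z = _
    simp only [Finset.sum_apply, Pi.pow_apply, Matrix.mul_apply, Matrix.transpose_apply,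
      Matrix.vandermonde_apply]
    rw [← Equiv.sum_comp e.symm]
    exact Finset.sum_congr rfl fun x _ => pow_add _ _ _
  have htz : ∀ z : ℍ, (fun a => t a z) =
      (Matrix.vandermonde fun a => U (e.symm a) z).transpose.mulVec
        fun a => Fq (e.symm a) z := by
    intro z
    ext a
    simp only [t, Finset.sum_apply, Pi.mul_apply, Pi.pow_apply, Matrix.mulVec, dotProduct,
      Matrix.transpose_apply, Matrix.vandermonde_apply]
    rw [← Equiv.sum_comp e.symm]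
    exact Finset.sum_congr rfl fun x _ => mul_comm _ _
  have hdz : ∀ z : ℍ, d z = ((Matrix.vandermonde fun a => U (e.symm a) z).transpose *
        Matrix.vandermonde fun a => U (e.symm a) z).det := by
    intro z
    rw [← hMz z, ← RingHom.map_det, hd]
    rfl
  refine ⟨w, d, μ, fun j => if h : j < μ then (M.updateCol ⟨j, h⟩ t).det else 0, ?_, ?_, ?_⟩
  · -- d ≠ 0
    obtain ⟨z, hz⟩ := exists_injective_quotientFunc u hu
    intro h0
    have h1 : d z = 0 := by rw [h0]; rfl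
    rw [hdz z, Matrix.det_mul, Matrix.det_transpose, mul_self_eq_zero] at h1
    exact Matrix.det_vandermonde_ne_zero_iff.mpr (hz.comp e.symm.injective) h1
  · intro j hj
    simp only [hj, dif_pos]
    have h1 := IsMF.det (Γ := 𝒮ℒ) (M.updateCol ⟨j, hj⟩ t) (fun r => l * (r.val : ℤ))
      (Function.update (fun c : Fin μ => l * (c.val : ℤ)) ⟨j, hj⟩ k) (by
        intro r c
        by_cases hc : c = ⟨j, hj⟩
        · subst hc
          simpa using ht r
        · simpa [Matrix.updateCol_ne hc, Function.update_of_ne hc] using hM r c)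
    have h2 : ∑ r : Fin μ, l * (r.val : ℤ) +
        ∑ c, Function.update (fun c : Fin μ => l * (c.val : ℤ)) ⟨j, hj⟩ k c = w + k - l * j := by
      rw [Finset.sum_update_of_mem (Finset.mem_univ _), hw,
        ← Finset.add_sum_erase Finset.univ (fun c : Fin μ => l * (c.val : ℤ))
          (Finset.mem_univ (⟨j, hj⟩ : Fin μ)), Finset.sdiff_singleton_eq_erase]
      ring
    rw [h2] at h1
    exact h1
  · intro z
    have key := congrFun (vandermonde_cramer (fun a => U (e.symm a) z)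
      (fun a => Fq (e.symm a) z)) (e ⟦1⟧)
    simp only [Pi.smul_apply, smul_eq_mul, Equiv.symm_apply_apply] at key
    rw [← hdz z] at key
    have hF1 : Fq ⟦1⟧ z = f z := by simp only [Fq]; rw [quotientFunc_one]
    have hU1 : U ⟦1⟧ z = u z := by simp only [U]; rw [quotientFunc_one]
    rw [hF1] at key
    rw [← key, Finset.sum_range]
    simp only [Matrix.mulVec, dotProduct, Matrix.vandermonde_apply, Equiv.symm_apply_apply, hU1]
    refine Finset.sum_congr rfl fun j _ => ?_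
    rw [mul_comm]
    congr 1
    simp only [j.2, dif_pos, Fin.eta]
    rw [Matrix.cramer_apply, ← hMz z, ← htz z]
    have : (M.updateCol j t).det z =
        (Pi.evalRingHom (fun _ : ℍ => ℂ) z) (M.updateCol j t).det := rfl
    rw [this, RingHom.map_det]
    congr 1
    ext a b
    by_cases hb : b = j
    · subst hb; simp
    · simp [Matrix.updateCol_ne hb]

end Fermat.Agent.S23
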