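import Mathlib
import Fermat.Agent.S23.Defs

/-!
# Level one modular forms are spanned by forms with integral `q`-expansion (lemma L4)
-/

set_option autoImplicit false

open UpperHalfPlane ModularForm
open scoped MatrixGroups Manifold

namespace Fermat.Agent.S23

namespace LevelOne

open EisensteinSeries

theorem mem_intSeries_iff (s : PowerSeries ℂ) :
    s ∈ intSeries ↔ ∃ t : PowerSeries ℤ, t.map (Int.castRingHom ℂ) = s := by
  constructor
  · intro h
    choose m hm using h
    refine ⟨PowerSeries.mk m, ?_⟩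
    ext n
    simp [hm n]
  · rintro ⟨t, rfl⟩ n
    exact ⟨t.coeff n, by simp⟩

theorem intSeries_mul {s t : PowerSeries ℂ} (hs : s ∈ intSeries) (ht : t ∈ intSeries) :
    s * t ∈ intSeries := by
  rw [mem_intSeries_iff] at *
  obtain ⟨a, rfl⟩ := hs
  obtain ⟨b, rfl⟩ := ht
  exact ⟨a * b, map_mul _ _ _⟩

theorem intSeries_sub {s t : PowerSeries ℂ} (hs : s ∈ intSeries) (ht : t ∈ intSeries) :
    s - t ∈ intSeries := by
  rw [mem_intSeries_iff] at *
  obtain ⟨a, rfl⟩ := hs
  obtain ⟨b, rfl⟩ := ht
  exact ⟨a - b, map_sub _ _ _⟩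

theorem intSeries_pow {s : PowerSeries ℂ} (hs : s ∈ intSeries) (n : ℕ) :
    s ^ n ∈ intSeries := by
  rw [mem_intSeries_iff] at *
  obtain ⟨a, rfl⟩ := hs
  exact ⟨a ^ n, map_pow _ _ _⟩

theorem intSeries_one : (1 : PowerSeries ℂ) ∈ intSeries := by
  rw [mem_intSeries_iff]
  exact ⟨1, map_one _⟩

/-- The set of level one forms of weight `k` with integral `q`-expansion. -/
def intForms (k : ℤ) : Set (ModularForm 𝒮ℒ k) := {G | qExpansion 1 G ∈ intSeries}

/-- The coefficients of the Eisenstein series are a fixed rational multiple of integers. -/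
theorem E_smul_mem {k : ℕ} (hk : 3 ≤ k) (hk2 : Even k) :
    ∃ c : ℂ, c ≠ 0 ∧ c • E hk ∈ intForms k := by
  set r : ℚ := -(2 * k / bernoulli k) with hr
  have hden : (r.den : ℂ) ≠ 0 := by exact_mod_cast r.den_nz
  refine ⟨r.den, hden, ?_⟩
  intro n
  have h1 : qExpansion 1 (⇑((r.den : ℂ) • E hk)) = (r.den : ℂ) • qExpansion 1 (E hk) := by
    rw [FunLike.coe_smul]
    exact ModularForm.qExpansion_smul one_pos one_mem_strictPeriods_SL _ _
  rw [h1, PowerSeries.coeff_smul, E_qExpansion_coeff hk hk2]
  split_ifs with hn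
  · exact ⟨r.den, by simp⟩
  · refine ⟨r.num * (ArithmeticFunction.sigma (k - 1) n : ℤ), ?_⟩
    have h2 : (-(2 * k / bernoulli k : ℂ)) = (r : ℂ) := by
      rw [hr]; push_cast; ring
    have h3 : (r.den : ℂ) * (r : ℂ) = (r.num : ℂ) := by
      have := Rat.den_mul_eq_num r
      exact_mod_cast congrArg (fun x : ℚ => (x : ℂ)) this
    rw [h2, smul_eq_mul, ← mul_assoc, h3]
    push_cast
    ring

theorem E_mem_span {k : ℕ} (hk : 3 ≤ k) (hk2 : Even k) :
    E hk ∈ Submodule.span ℂ (intForms k) := by
  obtain ⟨c, hc, hmem⟩ := E_smul_mem hk hk2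
  have : E hk = c⁻¹ • (c • E hk) := by
    rw [smul_smul, inv_mul_cancel₀ hc, one_smul]
  rw [this]
  exact Submodule.smul_mem _ _ (Submodule.subset_span hmem)

theorem E₄_int : qExpansion 1 E₄ ∈ intSeries := by
  intro n
  rw [E_qExpansion_coeff _ ⟨2, rfl⟩]
  split_ifs with hn
  · exact ⟨1, by simp⟩
  · refine ⟨240 * (ArithmeticFunction.sigma 3 n : ℤ), ?_⟩
    norm_num [show bernoulli 4 = -1 / 30 by decide +kernel]

theorem E₆_int : qExpansion 1 E₆ ∈ intSeries := by
  intro n
  rw [E_qExpansion_coeff _ ⟨3, rfl⟩]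
  split_ifs with hn
  · exact ⟨1, by simp⟩
  · refine ⟨-504 * (ArithmeticFunction.sigma 5 n : ℤ), ?_⟩
    norm_num [show bernoulli 6 = 1 / 42 by decide +kernel]

/-- `E₄³ - E₆² = 1728 Δ` as a level one form of weight 12. -/
noncomputable def D12 : ModularForm 𝒮ℒ 12 :=
  ModularForm.mcast (by decide) (E₄.pow 3) - ModularForm.mcast (by decide) (E₆.pow 2)

theorem D12_apply (z : ℍ) : D12 z = 1728 * ModularForm.discriminant z := by
  have : D12 z = E₄ z ^ 3 - E₆ z ^ 2 := by
    simp only [D12, coe_mcast, coe_pow, sub_apply, Pi.pow_apply]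
  rw [this, discriminant_eq_E₄_cube_sub_E₆_sq z]
  ring

theorem D12_int : qExpansion 1 D12 ∈ intSeries := by
  have : qExpansion 1 D12 = qExpansion 1 E₄ ^ 3 - qExpansion 1 E₆ ^ 2 := by
    simp only [D12, FunLike.coe_sub, coe_mcast,
      ModularForm.qExpansion_sub one_pos one_mem_strictPeriods_SL,
      ModularForm.qExpansion_pow one_pos one_mem_strictPeriods_SL]
  rw [this]
  exact intSeries_sub (intSeries_pow E₄_int 3) (intSeries_pow E₆_int 2)

/-- Multiplication by `D12`, as a linear map raising the weight by 12. -/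
noncomputable def mulD12 (k : ℤ) : ModularForm 𝒮ℒ (k - 12) →ₗ[ℂ] ModularForm 𝒮ℒ k where
  toFun d := ModularForm.mcast (by ring) (D12.mul d)
  map_add' a b := by
    ext z
    simp [mul_add]
  map_smul' c a := by
    ext z
    simp
    ring

theorem mulD12_apply (k : ℤ) (d : ModularForm 𝒮ℒ (k - 12)) (z : ℍ) :
    mulD12 k d z = D12 z * d z := rfl

theorem mulD12_int (k : ℤ) {d : ModularForm 𝒮ℒ (k - 12)} (hd : d ∈ intForms (k - 12)) :
    mulD12 k d ∈ intForms k := by
  have : qExpansion 1 (mulD12 k d) = qExpansion 1 D12 * qExpansion 1 d :=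
    ModularForm.qExpansion_mul one_pos one_mem_strictPeriods_SL D12 d
  change qExpansion 1 (mulD12 k d) ∈ intSeries
  rw [this]
  exact intSeries_mul D12_int hd

theorem mulD12_mem_span (k : ℤ) (h : Submodule.span ℂ (intForms (k - 12)) = ⊤)
    (d : ModularForm 𝒮ℒ (k - 12)) : mulD12 k d ∈ Submodule.span ℂ (intForms k) := by
  have hd : d ∈ Submodule.span ℂ (intForms (k - 12)) := by rw [h]; trivial
  have := Submodule.mem_map_of_mem (f := mulD12 k) hd
  rw [Submodule.map_span] at this
  refine Submodule.span_mono ?_ this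
  rintro _ ⟨d, hd, rfl⟩
  exact mulD12_int k hd

theorem span_eq_top_of_forall_zero {k : ℤ} (h : ∀ f : ModularForm 𝒮ℒ k, f = 0) :
    Submodule.span ℂ (intForms k) = ⊤ := by
  rw [eq_top_iff]
  intro f _
  rw [h f]
  exact Submodule.zero_mem _

/-- the inductive step -/
theorem step {k : ℕ} (hk : 3 ≤ k) (hk2 : Even k)
    (h : Submodule.span ℂ (intForms ((k : ℤ) - 12)) = ⊤) :
    Submodule.span ℂ (intForms (k : ℤ)) = ⊤ := by
  rw [eq_top_iff]
  intro f _
  set a := (qExpansion 1 f).coeff 0 with ha
  set g : ModularForm 𝒮ℒ k := f - a • E hk with hg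
  have hg0 : (qExpansion 1 g).coeff 0 = 0 := by
    rw [hg, FunLike.coe_sub, ModularForm.qExpansion_sub one_pos one_mem_strictPeriods_SL,
      FunLike.coe_smul, ModularForm.qExpansion_smul one_pos one_mem_strictPeriods_SL, map_sub,
      PowerSeries.coeff_smul, E_qExpansion_coeff_zero hk hk2, smul_eq_mul, mul_one, sub_self]
  set d := CuspForm.discriminantEquiv (toCuspForm g hg0) with hd
  have hgd : g = (1728 : ℂ)⁻¹ • mulD12 k d := by
    ext z
    have h1 : ModularForm.discriminant z * d z = g z := by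
      rw [hd, discriminant_mul_discriminantEquiv_apply, toCuspForm_apply]
    change g z = (1728 : ℂ)⁻¹ * (mulD12 k d z)
    rw [mulD12_apply, D12_apply, ← h1]
    ring
  have hf : f = a • E hk + g := by rw [hg]; abel
  rw [hf]
  refine Submodule.add_mem _ (Submodule.smul_mem _ _ (E_mem_span hk hk2)) ?_
  rw [hgd]
  exact Submodule.smul_mem _ _ (mulD12_mem_span k h d)

theorem span_neg {k : ℤ} (hk : k < 0) : Submodule.span ℂ (intForms k) = ⊤ :=
  span_eq_top_of_forall_zero fun f =>
    rank_zero_iff_forall_zero.mp (levelOne_neg_weight_rank_zero hk) f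

theorem span_zero : Submodule.span ℂ (intForms 0) = ⊤ := by
  rw [eq_top_iff]
  intro f _
  obtain ⟨c, hc⟩ := ModularFormClass.levelOne_weight_zero_const f
  have h1 : (1 : ModularForm 𝒮ℒ 0) ∈ intForms 0 := by
    change qExpansion 1 (1 : ModularForm 𝒮ℒ 0) ∈ intSeries
    rw [ModularForm.qExpansion_one]
    exact intSeries_one
  have : f = c • (1 : ModularForm 𝒮ℒ 0) := by
    ext z
    have := congrFun hc z
    simpa using this
  rw [this]
  exact Submodule.smul_mem _ _ (Submodule.subset_span h1)

theorem span_nat (k : ℕ) : Submodule.span ℂ (intForms (k : ℤ)) = ⊤ := by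
  induction k using Nat.strong_induction_on with
  | _ k ih =>
    rcases Nat.even_or_odd k with hk2 | hk2
    · rcases lt_or_ge k 3 with hk | hk
      · have : k = 0 ∨ k = 2 := by
          obtain ⟨m, rfl⟩ := hk2
          omega
        rcases this with rfl | rfl
        · exact span_zero
        · exact span_eq_top_of_forall_zero fun f =>
            rank_zero_iff_forall_zero.mp levelOne_weight_two_rank_zero f
      · apply step hk hk2
        rcases lt_or_ge k 12 with h12 | h12
        · exact span_neg (by omega)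
        · have := ih (k - 12) (by omega)
          rwa [show ((k - 12 : ℕ) : ℤ) = (k : ℤ) - 12 by omega] at this
    · exact span_eq_top_of_forall_zero fun f =>
        levelOne_odd_weight_eq_zero (by exact_mod_cast hk2) f

end LevelOne

/-- **L4.** Level one modular forms of any weight are spanned by forms with integral
`q`-expansion. -/
theorem levelOne_span_integral (k : ℤ) :
    Submodule.span ℂ {G : ModularForm 𝒮ℒ k | qExpansion 1 G ∈ intSeries} = ⊤ := by
  rcases lt_or_ge k 0 with hk | hk
  · exact LevelOne.span_neg hk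
  · lift k to ℕ using hk
    exact LevelOne.span_nat k

end Fermat.Agent.S23
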