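import Mathlib
import Fermat.Agent.S23.Nice
import Fermat.Agent.S23.Fraction
import Fermat.Agent.S23.LevelOne

/-!
Consequences of L4 for `q`-expansions of level-one forms, and the transfer of the relations of L5
to identities between `q`-expansions.
-/

set_option autoImplicit false

open UpperHalfPlane ModularForm
open scoped MatrixGroups Manifold

namespace Fermat.Agent.S23

lemma map_eq_self_of_mem_intSeries (σ : ℂ →+* ℂ) {s : PowerSeries ℂ} (hs : s ∈ intSeries) :
    s.map σ = s := by
  ext n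
  obtain ⟨m, hm⟩ := hs n
  simp [hm]

/-- `σ`-conjugation of level-one modular forms. -/
lemma levelOne_conj (σ : ℂ →+* ℂ) {k : ℤ} (G : ModularForm 𝒮ℒ k) :
    ∃ G' : ModularForm 𝒮ℒ k, qExpansion 1 G' = (qExpansion 1 G).map σ := by
  have hG : G ∈ Submodule.span ℂ {G : ModularForm 𝒮ℒ k | qExpansion 1 G ∈ intSeries} := by
    rw [levelOne_span_integral]; trivial
  induction hG using Submodule.span_induction with
  | mem x hx => exact ⟨x, (map_eq_self_of_mem_intSeries σ hx).symm⟩
  | zero => exact ⟨0, by simp [qExpansion_zero]⟩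
  | add x y _ _ hx hy =>
    obtain ⟨x', hx'⟩ := hx
    obtain ⟨y', hy'⟩ := hy
    refine ⟨x' + y', ?_⟩
    rw [FunLike.coe_add, FunLike.coe_add,
      ModularForm.qExpansion_add one_pos one_mem_strictPeriods_SL,
      ModularForm.qExpansion_add one_pos one_mem_strictPeriods_SL, map_add, hx', hy']
  | smul c x _ hx =>
    obtain ⟨x', hx'⟩ := hx
    refine ⟨σ c • x', ?_⟩
    rw [FunLike.coe_smul, FunLike.coe_smul,
      ModularForm.qExpansion_smul one_pos one_mem_strictPeriods_SL,
      ModularForm.qExpansion_smul one_pos one_mem_strictPeriods_SL, hx']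
    ext n
    simp

/-- `σ`-conjugation of level-one cusp forms. -/
lemma levelOne_conj_cusp (σ : ℂ →+* ℂ) {k : ℤ} (G : CuspForm 𝒮ℒ k) :
    ∃ G' : CuspForm 𝒮ℒ k, qExpansion 1 G' = (qExpansion 1 G).map σ := by
  obtain ⟨M, hM⟩ := levelOne_conj σ (ModularFormClass.modularForm G)
  have h0 : (qExpansion 1 M).coeff 0 = 0 := by
    rw [hM, PowerSeries.coeff_map]
    have : (qExpansion 1 (ModularFormClass.modularForm G)).coeff 0 = 0 :=
      CuspFormClass.qExpansion_coeff_zero G one_pos one_mem_strictPeriods_SL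
    rw [this, map_zero]
  exact ⟨toCuspForm M h0, hM⟩

lemma levelOne_mem_span {k : ℤ} (G : ModularForm 𝒮ℒ k) :
    qExpansion 1 G ∈ Submodule.span ℂ intSeries := by
  have hG : G ∈ Submodule.span ℂ {G : ModularForm 𝒮ℒ k | qExpansion 1 G ∈ intSeries} := by
    rw [levelOne_span_integral]; trivial
  induction hG using Submodule.span_induction with
  | mem x hx => exact Submodule.subset_span hx
  | zero => simp [qExpansion_zero]
  | add x y _ _ hx hy =>
    rw [FunLike.coe_add, ModularForm.qExpansion_add one_pos one_mem_strictPeriods_SL]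
    exact add_mem hx hy
  | smul c x _ hx =>
    rw [FunLike.coe_smul, ModularForm.qExpansion_smul one_pos one_mem_strictPeriods_SL]
    exact Submodule.smul_mem _ c hx

lemma span_intSeries_mul {a b : PowerSeries ℂ} (ha : a ∈ Submodule.span ℂ intSeries)
    (hb : b ∈ Submodule.span ℂ intSeries) : a * b ∈ Submodule.span ℂ intSeries := by
  have h := Submodule.mul_mem_mul ha hb
  rw [Submodule.span_mul_span] at h
  refine Submodule.span_mono ?_ h
  rintro _ ⟨x, hx, y, hy, rfl⟩
  exact LevelOne.intSeries_mul hx hy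

/-- The relations of L5, as identities between `q`-expansions. -/
theorem qExp_relations {Γ : Subgroup (GL (Fin 2) ℝ)} [Γ.IsArithmetic]
    (h1 : (1 : ℝ) ∈ Γ.strictPeriods) {k l : ℤ} (f : CuspForm Γ k) (u : ModularForm Γ l)
    (hu : ∀ γ ∈ 𝒮ℒ, (⇑u ∣[l] γ = ⇑u) → γ ∈ Γ) :
    ∃ (w : ℤ) (d : ModularForm 𝒮ℒ w) (μ' : ℕ) (B : ∀ j : ℕ, ModularForm 𝒮ℒ (w + k - l * j))
      (μ : ℕ) (C : ∀ i : ℕ, CuspForm 𝒮ℒ (k * (μ - i))),
      d ≠ 0 ∧
      qExpansion 1 d * qExpansion 1 f =
        ∑ j ∈ Finset.range μ', qExpansion 1 (B j) * qExpansion 1 u ^ j ∧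
      qExpansion 1 f ^ μ + ∑ i ∈ Finset.range μ, qExpansion 1 (C i) * qExpansion 1 f ^ i = 0 := by
  classical
  obtain ⟨w, d, μ', b, hd, hb, hrel⟩ := exists_fraction (ModularFormClass.modularForm f) u hu
  obtain ⟨μ, c, hc, hmon⟩ := exists_monic_relation f
  let B : ∀ j : ℕ, ModularForm 𝒮ℒ (w + k - l * j) := fun j =>
    if h : j < μ' then Classical.choose (hb j h) else 0
  have hB : ∀ j < μ', ⇑(B j) = b j := by
    intro j hj
    simp only [B, hj, dif_pos]
    exact Classical.choose_spec (hb j hj)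
  let C : ∀ i : ℕ, CuspForm 𝒮ℒ (k * (μ - i)) := fun i =>
    if h : i < μ then Classical.choose (hc i h) else 0
  have hC : ∀ i < μ, ⇑(C i) = c i := by
    intro i hi
    simp only [C, hi, dif_pos]
    exact Classical.choose_spec (hc i hi)
  refine ⟨w, d, μ', B, μ, C, hd, ?_, ?_⟩
  · have key : (⟨d, mem_niceAlg one_mem_strictPeriods_SL d⟩ : niceAlg) * ⟨f, mem_niceAlg h1 f⟩ =
        ∑ j ∈ Finset.range μ', (⟨B j, mem_niceAlg one_mem_strictPeriods_SL (B j)⟩ : niceAlg) *
          (⟨u, mem_niceAlg h1 u⟩ : niceAlg) ^ j := by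
      apply Subtype.ext
      funext z
      simp only [Subalgebra.coe_mul, AddSubmonoidClass.coe_finsetSum, Subalgebra.coe_pow,
        Pi.mul_apply, Finset.sum_apply, Pi.pow_apply]
      have := hrel z
      rw [ModularFormClass.coe_modularForm] at this
      rw [this]
      exact Finset.sum_congr rfl fun j hj => by rw [hB j (Finset.mem_range.mp hj)]
    have := congrArg qHom key
    simpa only [map_mul, map_sum, map_pow, qHom_apply] using this
  · have key : (⟨f, mem_niceAlg h1 f⟩ : niceAlg) ^ μ +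
        ∑ i ∈ Finset.range μ, (⟨C i, mem_niceAlg one_mem_strictPeriods_SL (C i)⟩ : niceAlg) *
          (⟨f, mem_niceAlg h1 f⟩ : niceAlg) ^ i = 0 := by
      apply Subtype.ext
      funext z
      simp only [Subalgebra.coe_add, Subalgebra.coe_mul, AddSubmonoidClass.coe_finsetSum,
        Subalgebra.coe_pow, Pi.add_apply, Pi.mul_apply, Finset.sum_apply, Pi.pow_apply,
        ZeroMemClass.coe_zero, Pi.zero_apply]
      rw [← hmon z]
      congr 1
      exact Finset.sum_congr rfl fun i hi => by rw [hC i (Finset.mem_range.mp hi)]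
    have := congrArg qHom key
    simpa only [map_add, map_mul, map_sum, map_pow, qHom_apply, map_zero] using this

end Fermat.Agent.S23
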