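import Mathlib
import Fermat.Agent.S23.Transfer
import Fermat.Agent.S23.Division
import Fermat.Agent.S23.BoundedDenominators

/-!
`σ`-stability of spaces of cusp forms (A1) and bounded denominators of rational forms (A4),
for an arithmetic group `Γ ≤ SL(2,ℤ)` possessing a "primitive element" `u`.
-/

set_option autoImplicit false

open UpperHalfPlane ModularForm
open scoped MatrixGroups Manifold

namespace Fermat.Agent.S23

variable {Γ : Subgroup (GL (Fin 2) ℝ)} [Γ.IsArithmetic]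

theorem bounded_of_rational (h1 : (1 : ℝ) ∈ Γ.strictPeriods) {k l : ℤ} (u : ModularForm Γ l)
    (hu : ∀ γ ∈ 𝒮ℒ, (⇑u ∣[l] γ = ⇑u) → γ ∈ Γ) (hui : qExpansion 1 u ∈ intSeries)
    (f : CuspForm Γ k) (hf : ∀ n, ∃ r : ℚ, (qExpansion 1 f).coeff n = r) :
    ∃ m : ℕ, m ≠ 0 ∧ (m : ℂ) • qExpansion 1 f ∈ intSeries := by
  obtain ⟨w, d, μ', B, μ, C, hd, hrel, hmon⟩ := qExp_relations h1 f u hu
  refine bounded_denominators (qExpansion 1 f) hf (qExpansion 1 d) ?_ (levelOne_mem_span d) ?_ μ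
    (fun i => qExpansion 1 (C i)) ?_ hmon
  · exact (ModularForm.qExpansion_eq_zero_iff one_pos one_mem_strictPeriods_SL d).not.mpr hd
  · rw [hrel]
    exact Submodule.sum_mem _ fun j _ => span_intSeries_mul (levelOne_mem_span (B j))
      (Submodule.subset_span (LevelOne.intSeries_pow hui j))
  · intro i _
    exact levelOne_mem_span (ModularFormClass.modularForm (C i))

theorem exists_conj [Γ.HasDetOne] (h1 : (1 : ℝ) ∈ Γ.strictPeriods) (hΓ : Γ ≤ 𝒮ℒ) {k l : ℤ}
    (u : ModularForm Γ l)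
    (hu : ∀ γ ∈ 𝒮ℒ, (⇑u ∣[l] γ = ⇑u) → γ ∈ Γ) (hui : qExpansion 1 u ∈ intSeries)
    (σ : ℂ →+* ℂ) (f : CuspForm Γ k) :
    ∃ g : CuspForm Γ k, qExpansion 1 g = (qExpansion 1 f).map σ := by
  classical
  obtain ⟨w, d, μ', B, μ, C, hd, hrel, hmon⟩ := qExp_relations h1 f u hu
  -- conjugate the level-one data
  obtain ⟨d', hd'⟩ := levelOne_conj σ d
  choose B' hB' using fun j => levelOne_conj σ (B j)
  choose C' hC' using fun i => levelOne_conj_cusp σ (C i)
  set F : PowerSeries ℂ := (qExpansion 1 f).map σ with hF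
  have hσu : (qExpansion 1 u).map σ = qExpansion 1 u := map_eq_self_of_mem_intSeries σ hui
  -- conjugated relations
  have hrel' : qExpansion 1 d' * F =
      ∑ j ∈ Finset.range μ', qExpansion 1 (B' j) * qExpansion 1 u ^ j := by
    have := congrArg (PowerSeries.map σ) hrel
    simpa only [map_mul, map_sum, map_pow, hσu, ← hd', ← hB'] using this
  have hmon' : F ^ μ + ∑ i ∈ Finset.range μ, qExpansion 1 (C' i) * F ^ i = 0 := by
    have := congrArg (PowerSeries.map σ) hmon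
    simpa only [map_add, map_mul, map_sum, map_pow, map_zero, ← hC'] using this
  -- the two modular forms on `Γ`
  obtain ⟨g₂, hg₂⟩ := (IsMF.coe d').mono hΓ
  obtain ⟨g₁, hg₁⟩ : IsMF Γ (w + k) (∑ j ∈ Finset.range μ', ⇑(B' j) * ⇑u ^ j) := by
    refine IsMF.sum _ fun j _ => ?_
    have := ((IsMF.coe (B' j)).mono hΓ).mul ((IsMF.coe u).pow j)
    have e : w + k - l * j + j * l = w + k := by ring
    rwa [e] at this
  have hd'0 : qExpansion 1 d' ≠ 0 := by
    rw [hd']
    intro h0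
    apply (ModularForm.qExpansion_eq_zero_iff one_pos one_mem_strictPeriods_SL d).not.mpr hd
    ext n
    have := congrArg (PowerSeries.coeff n) h0
    simpa using this
  have hq₂ : qExpansion 1 g₂ = qExpansion 1 d' := by rw [hg₂]
  have hg₂0 : g₂ ≠ 0 := by
    intro h0
    apply hd'0
    rw [← hq₂, h0]
    exact qExpansion_zero 1
  have hq₁ : qExpansion 1 g₁ = qExpansion 1 g₂ * F := by
    rw [hq₂, hrel', hg₁]
    have key : (∑ j ∈ Finset.range μ', ⇑(B' j) * ⇑u ^ j : ℍ → ℂ) =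
        ((∑ j ∈ Finset.range μ', (⟨B' j, mem_niceAlg one_mem_strictPeriods_SL (B' j)⟩ : niceAlg) *
          (⟨u, mem_niceAlg h1 u⟩ : niceAlg) ^ j : niceAlg) : ℍ → ℂ) := by
      simp only [AddSubmonoidClass.coe_finsetSum, Subalgebra.coe_mul, Subalgebra.coe_pow]
    rw [key, ← qHom_apply]
    simp only [map_sum, map_mul, map_pow, qHom_apply]
  -- the monic relation between `g₁` and `g₂`
  have hfun : ∀ z, g₁ z ^ μ + ∑ i ∈ Finset.range μ, (C' i) z * g₂ z ^ (μ - i) * g₁ z ^ i = 0 := by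
    have key : (⟨g₁, mem_niceAlg h1 g₁⟩ : niceAlg) ^ μ +
        ∑ i ∈ Finset.range μ, (⟨C' i, mem_niceAlg one_mem_strictPeriods_SL (C' i)⟩ : niceAlg) *
          (⟨g₂, mem_niceAlg h1 g₂⟩ : niceAlg) ^ (μ - i) * (⟨g₁, mem_niceAlg h1 g₁⟩ : niceAlg) ^ i
        = 0 := by
      apply qHom_injective
      simp only [map_add, map_mul, map_sum, map_pow, qHom_apply, map_zero]
      rw [hq₁]
      have : (qExpansion 1 g₂ * F) ^ μ + ∑ i ∈ Finset.range μ,
          qExpansion 1 (C' i) * qExpansion 1 g₂ ^ (μ - i) * (qExpansion 1 g₂ * F) ^ i =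
          qExpansion 1 g₂ ^ μ * (F ^ μ + ∑ i ∈ Finset.range μ, qExpansion 1 (C' i) * F ^ i) := by
        rw [mul_add, Finset.mul_sum, mul_pow]
        congr 1
        refine Finset.sum_congr rfl fun i hi => ?_
        have hi' : i ≤ μ := (Finset.mem_range.mp hi).le
        have e : qExpansion 1 g₂ ^ μ = qExpansion 1 g₂ ^ (μ - i) * qExpansion 1 g₂ ^ i := by
          rw [← pow_add, Nat.sub_add_cancel hi']
        rw [mul_pow, e]
        ring
      rw [this, hmon', mul_zero]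
    intro z
    have := congrFun (congrArg Subtype.val key) z
    simpa only [Subalgebra.coe_add, Subalgebra.coe_mul, AddSubmonoidClass.coe_finsetSum,
        Subalgebra.coe_pow, Pi.add_apply, Pi.mul_apply, Finset.sum_apply, Pi.pow_apply,
        ZeroMemClass.coe_zero, Pi.zero_apply] using this
  obtain ⟨φ, hφ⟩ := exists_cuspForm_of_monic g₁ g₂ hg₂0 μ (fun i => ⇑(C' i))
    (fun i _ => ⟨C' i, rfl⟩) hfun
  refine ⟨φ, ?_⟩
  have h3 : qExpansion 1 φ * qExpansion 1 g₂ = qExpansion 1 g₁ := by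
    rw [← ModularForm.qExpansion_mul_coe one_pos h1 φ g₂]
    congr 1
    funext z
    exact hφ z
  rw [hq₁, mul_comm (qExpansion 1 g₂)] at h3
  exact mul_right_cancel₀ (hq₂ ▸ hd'0) h3

end Fermat.Agent.S23
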