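import Mathlib
import Fermat.Agent.S23.Defs

/-!
S23-L2: Galois descent `ℂ → ℚ` for a space of sequences determined by finitely many coefficients.
-/

set_option autoImplicit false

namespace Fermat.Agent.S23

theorem span_rational_of_stable
    (hfix : ∀ x : ℂ, (∀ σ : ℂ →+* ℂ, σ x = x) → ∃ r : ℚ, x = r)
    {V : Type*} [AddCommGroup V] [Module ℂ V] (c : V →ₗ[ℂ] (ℕ → ℂ)) (B : ℕ)
    (hB : ∀ v, (∀ n ≤ B, c v n = 0) → v = 0)
    (hσ : ∀ (σ : ℂ →+* ℂ) (v : V), ∃ v', ∀ n, c v' n = σ (c v n)) :
    Submodule.span ℂ {v : V | ∀ n, ∃ r : ℚ, c v n = r} = ⊤ := by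
  classical
  set W := Submodule.span ℂ {v : V | ∀ n, ∃ r : ℚ, c v n = r} with hW
  let supp : V → Finset ℕ := fun v => (Finset.range (B + 1)).filter fun n => c v n ≠ 0
  have mem_supp : ∀ v n, n ∈ supp v ↔ n ≤ B ∧ c v n ≠ 0 := by
    intro v n
    simp only [supp, Finset.mem_filter, Finset.mem_range, Nat.lt_succ_iff]
  have supp_empty : ∀ v, supp v = ∅ → v = 0 := by
    intro v hv
    apply hB
    intro n hn
    by_contra h
    have : n ∈ supp v := (mem_supp v n).2 ⟨hn, h⟩
    rw [hv] at this
    simp at this
  have main : ∀ (k : ℕ) (v : V), (supp v).card = k → v ∈ W := by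
    intro k
    induction k using Nat.strong_induction_on with
    | _ k ih =>
      intro v hk
      by_cases hv0 : v = 0
      · rw [hv0]; exact Submodule.zero_mem _
      -- choose `w ≠ 0` with support inside that of `v`, of minimal size
      have hex : ∃ j, ∃ w : V, w ≠ 0 ∧ supp w ⊆ supp v ∧ (supp w).card = j :=
        ⟨_, v, hv0, Finset.Subset.refl _, rfl⟩
      obtain ⟨w, hw0, hwv, hwj⟩ := Nat.find_spec hex
      have hmin : ∀ w' : V, w' ≠ 0 → supp w' ⊆ supp v → (supp w).card ≤ (supp w').card := by
        intro w' h0 hs
        rw [hwj]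
        exact Nat.find_min' hex ⟨w', h0, hs, rfl⟩
      obtain ⟨n0, hn0⟩ : (supp w).Nonempty := by
        rw [Finset.nonempty_iff_ne_empty]
        exact fun h => hw0 (supp_empty w h)
      have hn0' := (mem_supp w n0).1 hn0
      -- normalise
      set u : V := (c w n0)⁻¹ • w with hu
      have hcu : ∀ n, c u n = (c w n0)⁻¹ * c w n := by
        intro n
        rw [hu, map_smul]; rfl
      have hu1 : c u n0 = 1 := by rw [hcu, inv_mul_cancel₀ hn0'.2]
      have hsu : supp u = supp w := by
        ext n
        rw [mem_supp, mem_supp, hcu]
        simp [hn0'.2]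
      -- `u` is fixed by all `σ`
      have hfixu : ∀ (σ : ℂ →+* ℂ) (n : ℕ), σ (c u n) = c u n := by
        intro σ n
        obtain ⟨u', hu'⟩ := hσ σ u
        have hz : u' - u = 0 := by
          by_contra hne
          have hsub : supp (u' - u) ⊆ (supp w).erase n0 := by
            intro m hm
            rw [mem_supp] at hm
            rw [Finset.mem_erase]
            have hcm : c (u' - u) m = σ (c u m) - c u m := by
              rw [map_sub]; simp [hu']
            refine ⟨?_, ?_⟩
            · rintro rfl
              apply hm.2
              rw [hcm, hu1, map_one, sub_self]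
            · rw [← hsu, mem_supp]
              refine ⟨hm.1, fun h0 => hm.2 ?_⟩
              rw [hcm, h0, map_zero, sub_self]
          have h1 : (supp w).card ≤ (supp (u' - u)).card :=
            hmin _ hne (hsub.trans ((Finset.erase_subset _ _).trans hwv))
          have h2 : (supp (u' - u)).card ≤ ((supp w).erase n0).card := Finset.card_le_card hsub
          have h3 : ((supp w).erase n0).card < (supp w).card := Finset.card_erase_lt_of_mem hn0
          omega
        have : u' = u := sub_eq_zero.mp hz
        rw [← hu', this]
      have huW : u ∈ W := by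
        apply Submodule.subset_span
        intro n
        exact hfix _ fun σ => hfixu σ n
      -- subtract
      set v' : V := v - (c v n0) • u with hv'
      have hcv' : ∀ n, c v' n = c v n - c v n0 * c u n := by
        intro n
        rw [hv', map_sub, map_smul]; rfl
      have hsub : supp v' ⊆ (supp v).erase n0 := by
        intro m hm
        rw [mem_supp] at hm
        rw [Finset.mem_erase]
        refine ⟨?_, ?_⟩
        · rintro rfl
          apply hm.2
          rw [hcv', hu1, mul_one, sub_self]
        · rw [mem_supp]
          refine ⟨hm.1, fun h0 => hm.2 ?_⟩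
          have hum : c u m = 0 := by
            by_contra hne
            have : m ∈ supp u := (mem_supp u m).2 ⟨hm.1, hne⟩
            rw [hsu] at this
            exact ((mem_supp v m).1 (hwv this)).2 h0
          rw [hcv', h0, hum, mul_zero, sub_self]
      have hlt : (supp v').card < k := by
        have h2 : (supp v').card ≤ ((supp v).erase n0).card := Finset.card_le_card hsub
        have h3 : ((supp v).erase n0).card < (supp v).card :=
          Finset.card_erase_lt_of_mem (hwv hn0)
        omega
      have hv'W : v' ∈ W := ih _ hlt v' rfl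
      have : v = v' + (c v n0) • u := by rw [hv']; abel
      rw [this]
      exact Submodule.add_mem _ hv'W (Submodule.smul_mem _ _ huW)
  rw [eq_top_iff]
  intro v _
  exact main _ v rfl

end Fermat.Agent.S23
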