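import Mathlib

/-!
# The fixed field of all ring endomorphisms of `ℂ` is `ℚ` (lemma L1 for S23)
-/

set_option autoImplicit false

namespace Fermat.Agent.S23

open MvPolynomial

/-- An automorphism of the polynomial ring on a transcendence basis extends to the
algebraically closed field. -/
theorem exists_ringEquiv_extending {F Ω ι : Type*} [Field F] [Field Ω] [Algebra F Ω]
    [IsAlgClosed Ω] (v : ι → Ω) (hv : IsTranscendenceBasis F v)
    (θ : MvPolynomial ι F ≃+* MvPolynomial ι F) :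
    ∃ σ : Ω ≃+* Ω, ∀ P : MvPolynomial ι F, σ (aeval v P) = aeval v (θ P) := by
  let _ := IsAlgClosed.isAlgClosure_of_transcendence_basis v hv
  let e : Algebra.adjoin F (Set.range v) ≃+* Algebra.adjoin F (Set.range v) :=
    hv.1.aevalEquiv.symm.toRingEquiv.trans (θ.trans hv.1.aevalEquiv.toRingEquiv)
  refine ⟨IsAlgClosure.equivOfEquiv Ω Ω e, fun P => ?_⟩
  have h1 : aeval v P = algebraMap (Algebra.adjoin F (Set.range v)) Ω (hv.1.aevalEquiv P) := by
    rw [AlgebraicIndependent.algebraMap_aevalEquiv]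
  rw [h1, IsAlgClosure.equivOfEquiv_algebraMap]
  have h2 : e (hv.1.aevalEquiv P) = hv.1.aevalEquiv (θ P) := by
    simp [e]
  rw [h2, AlgebraicIndependent.algebraMap_aevalEquiv]

theorem exists_ringHom_ne_of_transcendental (x : ℂ) (hx : Transcendental ℚ x) :
    ∃ σ : ℂ →+* ℂ, σ x ≠ x := by
  have hind : AlgebraicIndepOn ℚ id ({x} : Set ℂ) := by
    exact (algebraicIndependent_singleton_iff (⟨x, rfl⟩ : ({x} : Set ℂ))).mpr hx
  obtain ⟨t, hxt, ht⟩ := exists_isTranscendenceBasis_superset hind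
  have hxmem : x ∈ t := hxt rfl
  let θ : MvPolynomial t ℚ ≃ₐ[ℚ] MvPolynomial t ℚ :=
    AlgEquiv.ofAlgHom (aeval fun i => X i + 1) (aeval fun i => X i - 1)
      (by ext i; simp) (by ext i; simp)
  obtain ⟨σ, hσ⟩ := exists_ringEquiv_extending _ ht θ.toRingEquiv
  refine ⟨σ.toRingHom, ?_⟩
  have := hσ (X ⟨x, hxmem⟩)
  simp only [aeval_X, θ] at this
  have h2 : σ x = x + 1 := by
    simpa using this
  show σ x ≠ x
  rw [h2]
  simp

theorem exists_ringHom_ne_of_isAlgebraic (x : ℂ) (hx : IsAlgebraic ℚ x)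
    (hxQ : x ∉ Set.range ((↑) : ℚ → ℂ)) : ∃ σ : ℂ →+* ℂ, σ x ≠ x := by
  let F : IntermediateField ℚ ℂ := algebraicClosure ℚ ℂ
  have hac : IsAlgClosure ℚ F := algebraicClosure.isAlgClosure ℚ ℂ
  have hgal : IsGalois ℚ F := inferInstance
  let x' : F := ⟨x, (mem_algebraicClosure_iff).mpr hx⟩
  have hx' : x' ∉ (⊥ : IntermediateField ℚ F) := by
    intro hmem
    obtain ⟨r, hr⟩ := IntermediateField.mem_bot.mp hmem
    apply hxQ
    refine ⟨r, ?_⟩
    have := congrArg (Subtype.val : F → ℂ) hr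
    simpa [x'] using this
  rw [InfiniteGalois.mem_bot_iff_fixed] at hx'
  push Not at hx'
  obtain ⟨σ₀, hσ₀⟩ := hx'
  obtain ⟨ι, v, hv⟩ := exists_isTranscendenceBasis' F ℂ
  obtain ⟨σ, hσ⟩ := exists_ringEquiv_extending v hv (MvPolynomial.mapEquiv ι σ₀.toRingEquiv)
  refine ⟨σ.toRingHom, ?_⟩
  have := hσ (C x')
  have h2 : σ x = ((σ₀ x' : F) : ℂ) := by
    simpa [x'] using this
  show σ x ≠ x
  rw [h2]
  intro h
  exact hσ₀ (Subtype.ext h)

/-- **L1**: every complex number outside `ℚ` is moved by some ring endomorphism of `ℂ`. -/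
theorem exists_ringHom_ne (x : ℂ) (hx : x ∉ Set.range ((↑) : ℚ → ℂ)) :
    ∃ σ : ℂ →+* ℂ, σ x ≠ x := by
  by_cases h : IsAlgebraic ℚ x
  · exact exists_ringHom_ne_of_isAlgebraic x h hx
  · exact exists_ringHom_ne_of_transcendental x h

end Fermat.Agent.S23
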