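import Mathlib
import Fermat.Agent.S23.Defs
import Fermat.Agent.S23.Descent
import Fermat.Agent.S23.FixedField
import Fermat.Prelude.Def_CuspForm_IntegralStructure
import Fermat.Prelude.Thm_ModularForm_sturm_bound_Gamma0
import Fermat.Prelude.Thm_CongruenceSubgroup_one_mem_strictPeriods_Gamma0

/-!
# S23-A3: rational span from `Aut(ℂ)`-stability, and the glue to `HasIntegralStructure`
-/

set_option autoImplicit false

open UpperHalfPlane ModularForm
open scoped MatrixGroups Manifold

namespace Fermat.Agent.S23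

namespace RationalSpan

variable {N : ℕ} {k : ℤ}

theorem hΓ (N : ℕ) : (1 : ℝ) ∈ (Subgroup.map (Matrix.SpecialLinearGroup.mapGL ℝ)
    (CongruenceSubgroup.Gamma0 N)).strictPeriods :=
  CongruenceSubgroup.one_mem_strictPeriods_Gamma0 N

/-- The `q`-expansion coefficients as a linear map. -/
noncomputable def coeffMap (N : ℕ) (k : ℤ) :
    CuspForm (CongruenceSubgroup.Gamma0 N) k →ₗ[ℂ] (ℕ → ℂ) where
  toFun f n := (qExpansion 1 f).coeff n
  map_add' f g := by
    funext n
    simp only [CuspForm.coe_add, Pi.add_apply]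
    rw [ModularForm.qExpansion_add one_pos (hΓ N) f g, map_add]
  map_smul' c f := by
    funext n
    have h1 : ⇑(c • f) = c • ⇑f := by
      ext z
      simp
    simp only [h1, Pi.smul_apply, RingHom.id_apply]
    rw [ModularForm.qExpansion_smul one_pos (hΓ N) c f]
    simp

@[simp] theorem coeffMap_apply (f : CuspForm (CongruenceSubgroup.Gamma0 N) k) (n : ℕ) :
    coeffMap N k f n = (qExpansion 1 f).coeff n := rfl

theorem eq_zero_of_coeff [NeZero N] (f : CuspForm (CongruenceSubgroup.Gamma0 N) k)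
    (h : ∀ n ≤ (k * (CongruenceSubgroup.Gamma0 N).index).toNat / 12,
      coeffMap N k f n = 0) : f = 0 := by
  have hmf : (ModularFormClass.modularForm f : ModularForm (CongruenceSubgroup.Gamma0 N) k) = 0 := by
    refine ModularForm.sturm_bound_Gamma0 N _ fun n hn ↦ ?_
    exact h n hn
  have hcoe : (⇑f : ℍ → ℂ) = 0 := by
    have := congrArg (fun F : ModularForm (CongruenceSubgroup.Gamma0 N) k ↦ (⇑F : ℍ → ℂ)) hmf
    simpa using this
  exact DFunLike.coe_injective (hcoe.trans CuspForm.coe_zero.symm)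

end RationalSpan

open RationalSpan

theorem span_rational_cuspForms (N : ℕ) [NeZero N] (k : ℤ)
    (hconj : ∀ (σ : ℂ →+* ℂ) (f : CuspForm (CongruenceSubgroup.Gamma0 N) k),
      ∃ g : CuspForm (CongruenceSubgroup.Gamma0 N) k,
        qExpansion 1 g = (qExpansion 1 f).map σ) :
    Submodule.span ℂ {f : CuspForm (CongruenceSubgroup.Gamma0 N) k |
      ∀ n, ∃ r : ℚ, (qExpansion 1 f).coeff n = r} = ⊤ := by
  have hfix : ∀ x : ℂ, (∀ σ : ℂ →+* ℂ, σ x = x) → ∃ r : ℚ, x = r := by
    intro x hx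
    by_contra hne
    obtain ⟨σ, hσ⟩ := exists_ringHom_ne x (by
      rintro ⟨r, hr⟩
      exact hne ⟨r, hr.symm⟩)
    exact hσ (hx σ)
  exact span_rational_of_stable hfix (coeffMap N k) _ (fun f hf => eq_zero_of_coeff f hf)
    (fun σ f => by
      obtain ⟨g, hg⟩ := hconj σ f
      refine ⟨g, fun n => ?_⟩
      rw [coeffMap_apply, hg, PowerSeries.coeff_map, coeffMap_apply])

theorem hasIntegralStructure_of (N : ℕ) [NeZero N] (k : ℤ)
    (hspan : Submodule.span ℂ {f : CuspForm (CongruenceSubgroup.Gamma0 N) k |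
      ∀ n, ∃ r : ℚ, (qExpansion 1 f).coeff n = r} = ⊤)
    (hbd : ∀ f : CuspForm (CongruenceSubgroup.Gamma0 N) k,
      (∀ n, ∃ r : ℚ, (qExpansion 1 f).coeff n = r) →
        ∃ m : ℕ, m ≠ 0 ∧ (m : ℂ) • qExpansion 1 f ∈ intSeries) :
    CuspForm.HasIntegralStructure N k := by
  unfold CuspForm.HasIntegralStructure
  rw [eq_top_iff, ← hspan, Submodule.span_le]
  intro f hf
  obtain ⟨m, hm0, hm⟩ := hbd f hf
  have hmc : (m : ℂ) ≠ 0 := by exact_mod_cast hm0
  have h1 : (m : ℂ) • f ∈ CuspForm.intLattice N k := by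
    apply Submodule.subset_span
    intro n
    obtain ⟨a, ha⟩ := hm n
    refine ⟨a, ?_⟩
    rw [← ha]
    show coeffMap N k ((m : ℂ) • f) n = _
    rw [map_smul]
    simp
  have h2 : f = (m : ℂ)⁻¹ • ((m : ℂ) • f) := by
    rw [smul_smul, inv_mul_cancel₀ hmc, one_smul]
  rw [h2]
  exact Submodule.smul_mem _ _ (Submodule.subset_span h1)

end Fermat.Agent.S23
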