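import Mathlib
import Fermat.Agent.S23.Conj
import Fermat.Agent.S23.Primitive
import Fermat.Agent.S23.RationalSpan
import Fermat.Prelude.Def_CuspForm_IntegralStructure
import Fermat.Prelude.Thm_CongruenceSubgroup_one_mem_strictPeriods_Gamma0

/-!
`S_k(Γ₀(N))` is spanned over `ℂ` by forms with integral `q`-expansion, for every weight `k`.
-/

set_option autoImplicit false

open UpperHalfPlane ModularForm
open scoped MatrixGroups Manifold

namespace Fermat.Agent.S23

/-- **Main theorem**: `S_k(Γ₀(N))` is spanned by forms with integral `q`-expansion. -/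
theorem hasIntegralStructure (N : ℕ) [NeZero N] (k : ℤ) : CuspForm.HasIntegralStructure N k := by
  obtain ⟨u, hui, hu⟩ := exists_primitive N
  have h1 := CongruenceSubgroup.one_mem_strictPeriods_Gamma0 N
  have hΓ : (CongruenceSubgroup.Gamma0 N : Subgroup (GL (Fin 2) ℝ)) ≤ 𝒮ℒ := by
    rintro _ ⟨γ, _, rfl⟩
    exact ⟨γ, rfl⟩
  have hu' : ∀ γ ∈ 𝒮ℒ, (⇑u ∣[(4 : ℤ)] γ = ⇑u) →
      γ ∈ (CongruenceSubgroup.Gamma0 N : Subgroup (GL (Fin 2) ℝ)) := by
    rintro _ ⟨γ, rfl⟩ h
    exact ⟨γ, hu γ h, rfl⟩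
  exact hasIntegralStructure_of N k
    (span_rational_cuspForms N k fun σ f => exists_conj h1 hΓ u hu' hui σ f)
    (fun f hf => bounded_of_rational h1 u hu' hui f hf)

end Fermat.Agent.S23
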