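import Mathlib
import Fermat.Prelude.Def_CuspForm_HeckeAlgebra
import Fermat.Prelude.Def_CuspForm_IntegralStructure
import Fermat.Prelude.Thm_CuspForm_intLattice_fg
import Fermat.Prelude.Thm_CuspForm_mem_intLattice_of_mem_heckeAlgebra
import Fermat.Prelude.Thm_ModularForm_sturm_bound_Gamma0

/-!
# The Hecke algebra is a finite `ℤ`-module, given an integral structure (package A2)
-/

set_option autoImplicit false

open UpperHalfPlane ModularForm

namespace Fermat.Agent.S23

namespace HeckeFinite

/-- Cusp forms of weight `≤ 0` on `Γ₀(N)` vanish (Sturm bound). -/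
theorem cuspForm_eq_zero_of_nonpos (N : ℕ) [NeZero N] {k : ℤ} (hk : k ≤ 0)
    (f : CuspForm (CongruenceSubgroup.Gamma0 N) k) : f = 0 := by
  have h1 : (1 : ℝ) ∈ (CongruenceSubgroup.Gamma0 N : Subgroup (GL (Fin 2) ℝ)).strictPeriods := by
    simp [CongruenceSubgroup.strictPeriods_Gamma0]
  have key : (CuspForm.toModularFormₗ f) = 0 := by
    apply ModularForm.sturm_bound_Gamma0 N
    intro n hn
    have hn0 : n = 0 := by
      have h2 : k * ((CongruenceSubgroup.Gamma0 N).index : ℤ) ≤ 0 :=
        mul_nonpos_of_nonpos_of_nonneg hk (by positivity)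
      have h3 : (k * ((CongruenceSubgroup.Gamma0 N).index : ℤ)).toNat = 0 :=
        Int.toNat_of_nonpos h2
      rw [h3] at hn
      omega
    subst hn0
    exact CuspFormClass.qExpansion_coeff_zero f one_pos h1
  exact CuspForm.toModularFormₗ_injective (by rw [key, _root_.map_zero])

variable {N : ℕ} [NeZero N] {k : ℤ} {S : Set ℕ}

/-- Restriction of a Hecke operator to the integral lattice. -/
noncomputable def restr (hk : 1 ≤ k) :
    CuspForm.heckeAlgebra N k S →ₗ[ℤ] Module.End ℤ (CuspForm.intLattice N k) where
  toFun t := LinearMap.restrict ((t : Module.End ℂ (CuspForm (CongruenceSubgroup.Gamma0 N) k)).restrictScalars ℤ)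
    (fun _ hf => CuspForm.mem_intLattice_of_mem_heckeAlgebra hk t.2 hf)
  map_add' s t := by
    ext x
    rfl
  map_smul' c t := by
    ext x
    rfl

theorem restr_injective (hk : 1 ≤ k) (h : CuspForm.HasIntegralStructure N k) :
    Function.Injective (restr (N := N) (S := S) hk) := by
  rw [injective_iff_map_eq_zero]
  intro t ht
  apply Subtype.ext
  apply LinearMap.ext_on_range (v := ((↑) : CuspForm.intLattice N k → _))
  · rw [Subtype.range_coe]
    exact h
  · intro x
    have := congrArg Subtype.val (LinearMap.congr_fun ht x)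
    exact this

end HeckeFinite

open HeckeFinite in
/-- **A2.** -/
theorem moduleFinite_heckeAlgebra_of_hasIntegralStructure (N : ℕ) [NeZero N] (k : ℤ) (S : Set ℕ)
    (h : 1 ≤ k → CuspForm.HasIntegralStructure N k) :
    Module.Finite ℤ (CuspForm.heckeAlgebra N k S) := by
  rcases lt_or_ge k 1 with hk | hk
  · have : Subsingleton (CuspForm (CongruenceSubgroup.Gamma0 N) k) :=
      ⟨fun a b => by
        rw [cuspForm_eq_zero_of_nonpos N (by omega) a, cuspForm_eq_zero_of_nonpos N (by omega) b]⟩
    have : Subsingleton (Module.End ℂ (CuspForm (CongruenceSubgroup.Gamma0 N) k)) :=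
      ⟨fun a b => LinearMap.ext fun x => Subsingleton.elim _ _⟩
    have : Subsingleton (CuspForm.heckeAlgebra N k S) :=
      ⟨fun a b => Subtype.ext (Subsingleton.elim _ _)⟩
    infer_instance
  · have hfin : Module.Finite ℤ (CuspForm.intLattice N k) :=
      Module.Finite.iff_fg.mpr (CuspForm.intLattice_fg N k)
    have hfree : Module.Free ℤ (CuspForm.intLattice N k) := by
      have h0 : IsAddTorsionFree (CuspForm (CongruenceSubgroup.Gamma0 N) k) :=
        IsAddTorsionFree.of_isTorsionFree ℂ _
      have : IsAddTorsionFree (CuspForm.intLattice N k) :=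
        Function.Injective.isAddTorsionFree (CuspForm.intLattice N k).subtype.toAddMonoidHom
          Subtype.val_injective
      infer_instance
    have : Module.Finite ℤ (Module.End ℤ (CuspForm.intLattice N k)) := inferInstance
    exact Module.Finite.of_injective (restr hk) (restr_injective hk (h hk))

end Fermat.Agent.S23
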